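/-
S59lib / Ord / Line  (helper9) — Project I, `LocalOrdAt` for `W` good ordinary at `p`.

The `p`-torsion of the kernel of reduction `L = W[p] ∩ E₁` at a place `A` of `ℚ̄` over an odd prime
`p` of good reduction:
* `L` is stable under the inertia group `I_A`, and `(σ - 1) W[p] ⊆ L` for `σ ∈ I_A`
  (helper2's inertia-fixed centres of the residue discs);
* if `L ≠ ⊤` ("ordinary") then `L` is cyclic, and `g ∈ I_A` acting on `μ_p` by `μ ↦ μ ^ a` acts on
  `L` as multiplication by `a` (`det ρ̄ = χ`); in particular `I₁` fixes `L` pointwise.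
-/
import Fermat.Agent.S44lib.Iface
import Fermat.Agent.S44lib.Q1.ESide
import Fermat.Agent.S43lib.B3.Arith.Det
import Fermat.Agent.S59lib.Flat.Centres
import Fermat.Agent.S59lib.Flat.Germ

set_option autoImplicit false
set_option linter.unusedSectionVars false
set_option linter.style.haveILetI false

noncomputable section

namespace Fermat.Agent.S59lib.Ord

open Fermat.Agent.S19lib Fermat.Agent.S58lib.Tate Fermat.Agent.S05lib Fermat.Agent.S59lib.Flat
open Fermat.Agent.S44lib Fermat.Agent.S44lib.Q1 WeierstrassCurve Matrix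

local notation "Qb" => AlgebraicClosure ℚ
local notation "GQ" => (AlgebraicClosure ℚ ≃ₐ[ℚ] AlgebraicClosure ℚ)

variable (W : WeierstrassCurve ℤ) (p : ℕ) [hp : Fact p.Prime] (A : ValuationSubring Qb)

/-- **the line**: the `p`-torsion of the kernel of reduction at `A`. -/
def lineOrd : AddSubgroup (Ep (WQ' W) p) where
  carrier := {x : Ep (WQ' W) p | InE1 (Γ₀ := A.ValueGroup) A.valuation (WB W) (x : Pts (WQ' W))}
  zero_mem' := by
    show InE1 A.valuation (WB W) (0 : Pts (WQ' W))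
    exact inE1_zero
  add_mem' := fun {a b} ha hb => by
    show InE1 A.valuation (WB W) ((a : Pts (WQ' W)) + (b : Pts (WQ' W)))
    exact InE1.add (integralModel_WB W A) ha hb
  neg_mem' := fun {a} ha => by
    show InE1 A.valuation (WB W) (-(a : Pts (WQ' W)))
    exact InE1.neg ha

theorem mem_lineOrd {x : Ep (WQ' W) p} :
    x ∈ lineOrd W p A ↔ InE1 A.valuation (WB W) (x : Pts (WQ' W)) := Iff.rfl

variable {W p A}

theorem lineOrd_smul_mem {σ : GQ} (hσ : σ ∈ IA A) {x : Ep (WQ' W) p} (hx : x ∈ lineOrd W p A) :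
    σ • x ∈ lineOrd W p A :=
  inE1_smul W (IA_le_DA hσ) hx

/-- inertia acts trivially on `W[p] / L`. -/
theorem smul_sub_mem_lineOrd (hgood : ¬ (p : ℤ) ∣ W.Δ) (hA : A.LiesOverPrime p) {σ : GQ}
    (hσ : σ ∈ IA A) (x : Ep (WQ' W) p) : σ • x - x ∈ lineOrd W p A := by
  obtain ⟨y, hy, hxy⟩ := exists_unramified_centre W p hgood A hA (x : Pts (WQ' W))
  have h1 : InE1 A.valuation (WB W) (σ • ((x : Pts (WQ' W)) - y)) :=
    inE1_smul W (IA_le_DA hσ) hxy
  have h2 : InE1 A.valuation (WB W) (σ • ((x : Pts (WQ' W)) - y) - ((x : Pts (WQ' W)) - y)) := by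
    rw [sub_eq_add_neg]
    exact InE1.add (integralModel_WB W A) h1 (InE1.neg hxy)
  have e : σ • ((x : Pts (WQ' W)) - y) - ((x : Pts (WQ' W)) - y) =
      σ • (x : Pts (WQ' W)) - (x : Pts (WQ' W)) := by
    rw [smul_sub, hy σ hσ]; abel
  rw [e] at h2
  exact h2

theorem nsmul_p_eq_zero (x : Ep (WQ' W) p) : p • x = 0 := by
  have := Submodule.smul_torsionBy (R := ℤ) (M := Pts (WQ' W)) (a := ((p : ℕ) : ℤ)) x
  rwa [natCast_zsmul] at this

theorem nsmul_eq_of_modEq (x : Ep (WQ' W) p) {a b : ℕ} (h : (a : ZMod p) = (b : ZMod p)) :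
    a • x = b • x := by
  rw [ZMod.natCast_eq_natCast_iff] at h
  have e : ∀ n : ℕ, n • x = (n % p) • x := by
    intro n
    conv_lhs => rw [← Nat.mod_add_div n p, add_nsmul, mul_comm, mul_nsmul, nsmul_p_eq_zero,
      add_zero]
  rw [e a, e b, h]

variable (W p) in
theorem card_Ep (hΔ : W.Δ ≠ 0) : Nat.card (Ep (WQ' W) p) = p ^ 2 := by
  rw [Nat.card_congr (coordE W hΔ p).toEquiv, Nat.card_fun, Nat.card_eq_fintype_card,
    Nat.card_eq_fintype_card, ZMod.card, Fintype.card_fin]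

variable (W p) in
theorem finite_Ep (hΔ : W.Δ ≠ 0) : Finite (Ep (WQ' W) p) :=
  Finite.of_equiv _ (coordE W hΔ p).toEquiv.symm

/-- **`L` is cyclic** when it is a proper subgroup. -/
theorem exists_gen_lineOrd (hΔ : W.Δ ≠ 0) (hL : lineOrd W p A ≠ ⊤) :
    ∃ ℓ₀ ∈ lineOrd W p A, ∀ x ∈ lineOrd W p A, ∃ k : ℕ, x = k • ℓ₀ := by
  haveI := finite_Ep W p hΔ
  have hdvd : Nat.card (lineOrd W p A) ∣ p ^ 2 := by
    rw [← card_Ep W p hΔ]
    exact AddSubgroup.card_addSubgroup_dvd_card _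
  obtain ⟨j, hj, hcard⟩ := (Nat.dvd_prime_pow hp.out).1 hdvd
  interval_cases j
  · -- trivial
    refine ⟨0, (lineOrd W p A).zero_mem, fun x hx => ⟨0, ?_⟩⟩
    rw [pow_zero] at hcard
    have := (AddSubgroup.card_eq_one.mp hcard)
    rw [this] at hx
    rw [zero_smul]
    exact (AddSubgroup.mem_bot.mp hx)
  · -- cyclic of order `p`
    rw [pow_one] at hcard
    haveI : Fact (Nat.card (lineOrd W p A)).Prime := ⟨by rw [hcard]; exact hp.out⟩
    haveI : IsAddCyclic (lineOrd W p A) := isAddCyclic_of_prime_card (p := Nat.card (lineOrd W p A)) rfl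
    obtain ⟨g, hg⟩ := IsAddCyclic.exists_generator (α := lineOrd W p A)
    refine ⟨g.1, g.2, fun x hx => ?_⟩
    have h1 := hg ⟨x, hx⟩
    rw [← mem_multiples_iff_mem_zmultiples, AddSubmonoid.mem_multiples_iff] at h1
    obtain ⟨k, hk⟩ := h1
    refine ⟨k, ?_⟩
    have := congrArg Subtype.val hk
    simpa using this.symm
  · exfalso
    apply hL
    apply AddSubgroup.eq_top_of_card_eq
    rw [hcard, card_Ep W p hΔ]

/-- the determinant identity for `2 × 2` matrices -/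
theorem det_of_triangular {F : Type*} [Field F] (M : Matrix (Fin 2) (Fin 2) F) (u v : Fin 2 → F)
    (e t : F) (hu : M *ᵥ u = e • u) (hv : M *ᵥ v = v + t • u)
    (hD : u 0 * v 1 - u 1 * v 0 ≠ 0) : M.det = e := by
  have hu0 := congrFun hu 0
  have hu1 := congrFun hu 1
  have hv0 := congrFun hv 0
  have hv1 := congrFun hv 1
  simp only [mulVec, dotProduct, Fin.sum_univ_two, Pi.smul_apply, Pi.add_apply, smul_eq_mul]
    at hu0 hu1 hv0 hv1
  have key : (M.det - e) * (u 0 * v 1 - u 1 * v 0) = 0 := by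
    rw [Matrix.det_fin_two]
    linear_combination (v 1 + t * u 1) * hu0 - (v 0 + t * u 0) * hu1 + (M 0 0 * u 0 + M 0 1 * u 1) * hv1 -
      (M 1 0 * u 0 + M 1 1 * u 1) * hv0
  rcases mul_eq_zero.mp key with h | h
  · exact sub_eq_zero.mp h
  · exact absurd h hD

/-- dependent vectors of `F²` -/
theorem exists_smul_of_det_zero {F : Type*} [Field F] (u v : Fin 2 → F) (hu : u ≠ 0)
    (hD : u 0 * v 1 - u 1 * v 0 = 0) : ∃ s : F, v = s • u := by
  by_cases h0 : u 0 = 0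
  · have h1 : u 1 ≠ 0 := by
      intro h1
      apply hu
      funext i
      fin_cases i
      · exact h0
      · exact h1
    refine ⟨v 1 / u 1, ?_⟩
    funext i
    fin_cases i
    · show v 0 = v 1 / u 1 * u 0
      rw [h0, zero_mul, zero_sub, neg_eq_zero] at hD
      rw [h0, mul_zero]
      exact (mul_eq_zero.mp hD).resolve_left h1
    · show v 1 = v 1 / u 1 * u 1
      field_simp
  · refine ⟨v 0 / u 0, ?_⟩
    funext i
    fin_cases i
    · show v 0 = v 0 / u 0 * u 0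
      field_simp
    · show v 1 = v 0 / u 0 * u 1
      field_simp
      linear_combination hD

/-- **`det = χ` on the line**: an inertia element acting on `μ_p` by `μ ↦ μ ^ a` acts on `L` as
multiplication by `a`. -/
theorem smul_lineOrd_of_rootAction (hΔ : W.Δ ≠ 0) (hgood : ¬ (p : ℤ) ∣ W.Δ)
    (hA : A.LiesOverPrime p) (hL : lineOrd W p A ≠ ⊤) {g : GQ} (hg : g ∈ IA A) (a : ℕ)
    (ha : ∀ μ : Qb, μ ^ p = 1 → g μ = μ ^ a) :
    ∀ x ∈ lineOrd W p A, g • x = a • x := by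
  obtain ⟨ℓ₀, hℓ₀, hgen⟩ := exists_gen_lineOrd hΔ hL
  by_cases h0 : ℓ₀ = 0
  · intro x hx
    obtain ⟨k, rfl⟩ := hgen x hx
    rw [h0, smul_zero, smul_zero, smul_zero]
  -- a point outside the line
  obtain ⟨X, hX⟩ : ∃ X : Ep (WQ' W) p, X ∉ lineOrd W p A := by
    by_contra hcon
    push Not at hcon
    exact hL ((AddSubgroup.eq_top_iff' _).mpr hcon)
  obtain ⟨e, he⟩ := hgen _ (lineOrd_smul_mem hg hℓ₀)
  obtain ⟨t, ht⟩ := hgen _ (smul_sub_mem_lineOrd hgood hA hg X)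
  set c := coordE W hΔ p with hc
  have hu : rhoE W hΔ p g *ᵥ c ℓ₀ = (e : ZMod p) • c ℓ₀ := by
    rw [← coordE_smul, he, map_nsmul, Nat.cast_smul_eq_nsmul]
  have hv : rhoE W hΔ p g *ᵥ c X = c X + (t : ZMod p) • c ℓ₀ := by
    have e1 : g • X = X + t • ℓ₀ := by rw [← ht]; abel
    rw [← coordE_smul, e1, map_add, map_nsmul, Nat.cast_smul_eq_nsmul]
  have hu0 : c ℓ₀ ≠ 0 := fun h => h0 ((map_eq_zero_iff c c.injective).mp h)
  have hD : c ℓ₀ 0 * c X 1 - c ℓ₀ 1 * c X 0 ≠ 0 := by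
    intro hD
    obtain ⟨s, hs⟩ := exists_smul_of_det_zero (c ℓ₀) (c X) hu0 hD
    apply hX
    have e1 : c X = c (s.val • ℓ₀) := by
      rw [map_nsmul, hs, ← Nat.cast_smul_eq_nsmul (ZMod p), ZMod.natCast_zmod_val]
    rw [c.injective e1]
    exact (lineOrd W p A).nsmul_mem hℓ₀ _
  have hdet := det_of_triangular _ _ _ _ _ hu hv hD
  rw [Fermat.Agent.S43lib.B3.det_rhoE_eq_of_rootAction W hΔ p g a ha] at hdet
  have hgℓ : g • ℓ₀ = a • ℓ₀ := by
    rw [he]
    exact nsmul_eq_of_modEq ℓ₀ hdet.symm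
  intro x hx
  obtain ⟨k, rfl⟩ := hgen x hx
  rw [smul_comm, hgℓ, smul_comm]

/-- `I₁` fixes the line pointwise. -/
theorem smul_lineOrd_of_IOne (hΔ : W.Δ ≠ 0) (hgood : ¬ (p : ℤ) ∣ W.Δ)
    (hA : A.LiesOverPrime p) (hL : lineOrd W p A ≠ ⊤) {σ : GQ} (hσ : σ ∈ IOne A p) :
    ∀ x ∈ lineOrd W p A, σ • x = x := by
  intro x hx
  have := smul_lineOrd_of_rootAction hΔ hgood hA hL hσ.1 1
    (fun μ hμ => by rw [pow_one]; exact hσ.2 μ hμ) x hx
  rwa [one_smul] at this

end Fermat.Agent.S59lib.Ord
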