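/-
S59lib / Ord / Hss  (helper9) — Project I: the `hss` adapter for block FLAT-SS.

`ModPInertiaIrreducible W p` (the supersingular shape of `IsOptimalLevel.ss_of_dvd`) gives the hypothesis `hss` of
helper6's `FlatSS.isFlatAt_of_noCoinvariants`: the residual representation has no non-zero functional invariant under
an inertia group at `p`.

* `NoCoinv ρ̄ U` : no non-zero `U`-invariant functional on `ρ̄.V`; `NoCoinv.of_isEquiv`, `NoCoinv.baseChangeAlong`.
* `noCoinv_tateRepO` : for the Tate module `tateRepO W hΔ p hpO` over any complete local `O ∋ p`: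
  `NoCoinv (tateRepO …).residual I_A` when `W[p]` is `I_A`-irreducible.
* `hss_of_isEquiv` : the exact shape of `hss`, for any `ρ : GaloisRepAdic T` whose residual representation is
  equivalent to a base change of the residual representation of the Tate module.
-/
import Mathlib
import Fermat.Agent.S58lib.Tate.Residual
import Fermat.Agent.S59lib.Curve.General
import Fermat.Agent.S59lib.Ord.Line

set_option autoImplicit false
set_option linter.unusedSectionVars false
set_option linter.style.haveILetI false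

noncomputable section

namespace Fermat.Agent.S59lib.Ord

open Fermat.Agent.S58lib Fermat.Agent.S58lib.Tate Fermat.Agent.S29lib.S30 IsLocalRing
open Fermat.Agent.S59lib.Curve
open scoped TensorProduct WeierstrassCurve.Affine

local notation "Qb" => AlgebraicClosure ℚ
local notation "GQ" => (AlgebraicClosure ℚ ≃ₐ[ℚ] AlgebraicClosure ℚ)

/-! ### no coinvariants -/

/-- `ρ̄` has no non-zero functional invariant under `U` -/
def NoCoinv {k : Type} [Field k] (ρ : ResidualGaloisRep k) (U : Subgroup GQ) : Prop :=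
  ∀ f : ρ.V →ₗ[k] k, (∀ σ ∈ U, ∀ x : ρ.V, f (ρ.ρ σ x) = f x) → f = 0

theorem NoCoinv.of_isEquiv {k : Type} [Field k] {ρ₁ ρ₂ : ResidualGaloisRep k} {U : Subgroup GQ}
    (e : ρ₁.IsEquiv ρ₂) (h : NoCoinv ρ₂ U) : NoCoinv ρ₁ U := by
  obtain ⟨e⟩ := e
  intro f hf
  have h0 := h (f.comp e.toLinearEquiv.symm.toLinearMap) (fun σ hσ x => by
    show f (e.toLinearEquiv.symm (ρ₂.ρ σ x)) = f (e.toLinearEquiv.symm x)
    have h1 : e.toLinearEquiv.symm (ρ₂.ρ σ x) = ρ₁.ρ σ (e.toLinearEquiv.symm x) := by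
      apply e.toLinearEquiv.injective
      rw [LinearEquiv.apply_symm_apply, e.map_apply, LinearEquiv.apply_symm_apply]
    rw [h1, hf σ hσ])
  ext x
  have h2 := LinearMap.congr_fun h0 (e.toLinearEquiv x)
  rw [LinearMap.comp_apply, LinearEquiv.coe_coe, LinearEquiv.symm_apply_apply] at h2
  exact h2

theorem tensor_functional_eq_zero {k₀ k : Type} [Field k₀] [Field k] [Algebra k₀ k] {V₀ : Type}
    [AddCommGroup V₀] [Module k₀ V₀] (U : Subgroup GQ) (r : GQ → Module.End k₀ V₀)
    (h : ∀ f₀ : V₀ →ₗ[k₀] k₀, (∀ σ ∈ U, ∀ x, f₀ (r σ x) = f₀ x) → f₀ = 0)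
    (f : k ⊗[k₀] V₀ →ₗ[k] k) (hf : ∀ σ ∈ U, ∀ x, f ((r σ).baseChange k x) = f x) : f = 0 := by
  have key : ∀ v : V₀, f ((1 : k) ⊗ₜ[k₀] v) = 0 := by
    intro v
    rw [← Module.forall_dual_apply_eq_zero_iff k₀]
    intro lam
    let f₀ : V₀ →ₗ[k₀] k₀ :=
      lam.comp ((f.restrictScalars k₀).comp (TensorProduct.mk k₀ k V₀ 1))
    have h0 := h f₀ (fun σ hσ x => by
      show lam (f ((1 : k) ⊗ₜ[k₀] (r σ x))) = lam (f ((1 : k) ⊗ₜ[k₀] x))
      rw [← LinearMap.baseChange_tmul, hf σ hσ])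
    exact LinearMap.congr_fun h0 v
  refine LinearMap.ext fun x => ?_
  show f x = 0
  induction x using TensorProduct.induction_on with
  | zero => rw [map_zero]
  | tmul c v =>
    have e : c ⊗ₜ[k₀] v = c • ((1 : k) ⊗ₜ[k₀] v) := by
      rw [TensorProduct.smul_tmul', smul_eq_mul, mul_one]
    rw [e, map_smul, key v, smul_zero]
  | add x y hx hy => rw [map_add, hx, hy, add_zero]

theorem NoCoinv.baseChangeAlong {k₀ k : Type} [Field k₀] [Field k] (φ : k₀ →+* k)
    {ρ₀ : ResidualGaloisRep k₀} {U : Subgroup GQ} (h : NoCoinv ρ₀ U) :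
    NoCoinv (ρ₀.baseChangeAlong φ) U := by
  letI : Algebra k₀ k := φ.toAlgebra
  exact fun f hf => tensor_functional_eq_zero U (fun σ => ρ₀.ρ σ) h f hf

/-! ### invariant additive maps on an inertia-irreducible module -/

theorem addHom_eq_zero_of_irred {V : Type*} [AddCommGroup V] [DistribMulAction GQ V]
    {k : Type*} [AddCommGroup k] (U : Subgroup GQ)
    (hirr : ∀ L : AddSubgroup V, (∀ σ ∈ U, ∀ x ∈ L, σ • x ∈ L) → L = ⊥ ∨ L = ⊤)
    (hline : ∃ L : AddSubgroup V, L ≠ ⊥ ∧ L ≠ ⊤)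
    (φ : V →+ k) (hφ : ∀ σ ∈ U, ∀ x, φ (σ • x) = φ x) : φ = 0 := by
  have hker : ∀ σ ∈ U, ∀ x ∈ φ.ker, σ • x ∈ φ.ker := by
    intro σ hσ x hx
    rw [AddMonoidHom.mem_ker] at hx ⊢
    rw [hφ σ hσ x, hx]
  rcases hirr φ.ker hker with h | h
  · exfalso
    have hinj : Function.Injective φ := (AddMonoidHom.ker_eq_bot_iff φ).mp h
    have hfix : ∀ σ ∈ U, ∀ x : V, σ • x = x := fun σ hσ x => hinj (hφ σ hσ x)
    obtain ⟨L, hL0, hL1⟩ := hline
    rcases hirr L (fun σ hσ x hx => by rw [hfix σ hσ x]; exact hx) with h0 | h1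
    · exact hL0 h0
    · exact hL1 h1
  · ext x
    have : x ∈ φ.ker := by rw [h]; trivial
    exact this

variable {W : WeierstrassCurve ℤ} {p : ℕ} [hp : Fact p.Prime]

/-- `W[p]` has a subgroup of order `p` -/
theorem exists_line_Ep (hΔ : W.Δ ≠ 0) : ∃ L : AddSubgroup (Ep (WQ' W) p), L ≠ ⊥ ∧ L ≠ ⊤ := by
  haveI := finite_Ep W p hΔ
  have hcard := card_Ep (W := W) (p := p) hΔ
  have hp1 := hp.out.one_lt
  have hnt : Nontrivial (Ep (WQ' W) p) := by
    rw [← Finite.one_lt_card_iff_nontrivial, hcard]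
    nlinarith
  obtain ⟨x₀, hx₀⟩ := exists_ne (0 : Ep (WQ' W) p)
  have hpx : p • x₀ = 0 := by
    apply Subtype.ext
    have := x₀.2
    rw [Submodule.mem_torsionBy_iff] at this
    rw [Submodule.coe_smul_of_tower, Submodule.coe_zero, ← natCast_zsmul]
    exact this
  have hord : addOrderOf x₀ = p := addOrderOf_eq_prime hpx hx₀
  refine ⟨AddSubgroup.zmultiples x₀, ?_, ?_⟩
  · intro h
    have : x₀ ∈ AddSubgroup.zmultiples x₀ := AddSubgroup.mem_zmultiples x₀
    rw [h, AddSubgroup.mem_bot] at this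
    exact hx₀ this
  · intro h
    have h1 : Nat.card (AddSubgroup.zmultiples x₀) = p := by rw [Nat.card_zmultiples, hord]
    rw [h, AddSubgroup.card_top, hcard] at h1
    nlinarith

/-! ### the residual representation of the Tate module -/

section matrix

variable {O : Type} [CommRing O] {k : Type} [Field k] [Algebra O k]

/-- functionals on `k ⊗ O²` and on `k²` -/
theorem functional_eq_zero_of_matrix (U : Subgroup GQ) (M : GQ → Matrix (Fin 2) (Fin 2) O)
    (hg : ∀ g : (Fin 2 → k) →ₗ[k] k,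
      (∀ σ ∈ U, ∀ v, g (((M σ).map (algebraMap O k)).mulVec v) = g v) → g = 0)
    (f : k ⊗[O] (Fin 2 → O) →ₗ[k] k)
    (hf : ∀ σ ∈ U, ∀ x, f ((Matrix.toLin' (M σ)).baseChange k x) = f x) : f = 0 := by
  set Ψ := TensorProduct.piScalarRight O k k (Fin 2) with hΨ
  have h0 := hg (f.comp Ψ.symm.toLinearMap) (fun σ hσ v => by
    obtain ⟨z, rfl⟩ := Ψ.surjective v
    rw [← piScalarRight_baseChange_toLin' (k := k) (M σ) z]
    show f (Ψ.symm (Ψ _)) = f (Ψ.symm (Ψ z))
    rw [LinearEquiv.symm_apply_apply, LinearEquiv.symm_apply_apply, hf σ hσ])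
  refine LinearMap.ext fun x => ?_
  have h1 := LinearMap.congr_fun h0 (Ψ x)
  rw [LinearMap.comp_apply, LinearEquiv.coe_coe, LinearEquiv.symm_apply_apply] at h1
  exact h1

end matrix

section tate

variable (W : WeierstrassCurve ℤ) (hΔ : W.Δ ≠ 0) (p : ℕ) [hpf : Fact p.Prime]
  {O : Type} [CommRing O] [IsLocalRing O] [IsAdicComplete (maximalIdeal O) O]
  (hpO : (p : O) ∈ maximalIdeal O)

include hpO in
lemma natCast_residueField_eq_zero : ((p ^ 1 : ℕ) : ResidueField O) = 0 := by
  have h2 := (IsLocalRing.residue_eq_zero_iff (p : O)).mpr hpO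
  rw [map_natCast] at h2
  rw [pow_one]
  exact h2

/-- `ℤ/p → k` -/
def thetaO : ZMod (p ^ 1) →+* ResidueField O :=
  zmodHom (p ^ 1) (natCast_residueField_eq_zero p hpO)

/-- the comparison map `W[p] → k²` -/
def cmpMapO : Ep (WQ' W) p →+ (Fin 2 → ResidueField O) :=
  ((AddMonoidHom.compLeft (thetaO p hpO).toAddMonoidHom (Fin 2)).comp
    (levelEquiv (WQ' W) p (WQ'_Δ_ne_zero hΔ) 1).toAddMonoidHom).comp (toLevelOne (WQ' W) p)

lemma cmpMapO_apply (x : Ep (WQ' W) p) (i : Fin 2) :
    cmpMapO W hΔ p hpO x i =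
      thetaO p hpO (levelEquiv (WQ' W) p (WQ'_Δ_ne_zero hΔ) 1 (toLevelOne (WQ' W) p x) i) := rfl

/-- the reduced matrices are the level-one matrices -/
lemma resMatO_eq (σ : GQ) :
    (tateMat (WQ' W) p (maximalIdeal O) hpO (WQ'_Δ_ne_zero hΔ) σ).map
        (algebraMap O (ResidueField O)) =
      (levelMat (WQ' W) p (WQ'_Δ_ne_zero hΔ) 1 σ).map (thetaO p hpO) := by
  rw [tateMat_eq_map, ← tateMatZp_map_toZModPow]
  have hp0 : ((p : ℕ) : ResidueField O) = 0 := by
    have := natCast_residueField_eq_zero p hpO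
    rwa [pow_one] at this
  have e := padicInt_ringHom_ext p
    ((algebraMap O (ResidueField O)).comp (padicToRing p (maximalIdeal O) hpO))
    ((thetaO p hpO).comp (PadicInt.toZModPow 1)) hp0
  ext i j
  simp only [Matrix.map_apply]
  exact RingHom.congr_fun e _

/-- **equivariance of the comparison map** -/
theorem cmpMapO_smul (σ : GQ) (x : Ep (WQ' W) p) :
    cmpMapO W hΔ p hpO (σ • x) =
      ((tateMat (WQ' W) p (maximalIdeal O) hpO (WQ'_Δ_ne_zero hΔ) σ).map
        (algebraMap O (ResidueField O))).mulVec (cmpMapO W hΔ p hpO x) := by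
  funext i
  rw [cmpMapO_apply, toLevelOne_smul, ← levelMat_mulVec, resMatO_eq W hΔ p hpO]
  have := RingHom.map_mulVec (thetaO p hpO) (levelMat (WQ' W) p (WQ'_Δ_ne_zero hΔ) 1 σ)
    (levelEquiv (WQ' W) p (WQ'_Δ_ne_zero hΔ) 1 (toLevelOne (WQ' W) p x)) i
  rw [this]
  rfl

/-- the standard basis vectors are in the image of the comparison map -/
lemma exists_cmpMapO_eq_single (i : Fin 2) :
    ∃ x : Ep (WQ' W) p, cmpMapO W hΔ p hpO x = Pi.single i 1 := by
  obtain ⟨y, hy⟩ := (levelEquiv (WQ' W) p (WQ'_Δ_ne_zero hΔ) 1).surjective (Pi.single i 1)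
  obtain ⟨x, hx⟩ := toLevelOne_surjective (WQ' W) p y
  refine ⟨x, ?_⟩
  funext j
  rw [cmpMapO_apply, hx, hy]
  by_cases hij : j = i
  · subst hij
    rw [Pi.single_eq_same, Pi.single_eq_same, map_one]
  · rw [Pi.single_eq_of_ne hij, Pi.single_eq_of_ne hij, map_zero]

/-- **no inertia coinvariants on the residual Tate module** when `W[p]` is inertia-irreducible. -/
theorem noCoinv_tateRepO (U : Subgroup GQ)
    (hirr : ∀ L : AddSubgroup (Ep (WQ' W) p), (∀ σ ∈ U, ∀ x ∈ L, σ • x ∈ L) → L = ⊥ ∨ L = ⊤) :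
    NoCoinv (tateRepO W hΔ p hpO).residual U := by
  intro f hf
  refine functional_eq_zero_of_matrix (k := ResidueField O) U
    (fun σ => tateMat (WQ' W) p (maximalIdeal O) hpO (WQ'_Δ_ne_zero hΔ) σ) ?_ f hf
  intro g hg
  have hφ := addHom_eq_zero_of_irred U hirr (exists_line_Ep (W := W) (p := p) hΔ)
    (g.toAddMonoidHom.comp (cmpMapO W hΔ p hpO)) (fun σ hσ x => by
      show g (cmpMapO W hΔ p hpO (σ • x)) = g (cmpMapO W hΔ p hpO x)
      rw [cmpMapO_smul, hg σ hσ])
  refine LinearMap.ext fun v => ?_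
  rw [LinearMap.pi_apply_eq_sum_univ g v, LinearMap.zero_apply]
  refine Finset.sum_eq_zero fun i _ => ?_
  obtain ⟨x, hx⟩ := exists_cmpMapO_eq_single W hΔ p hpO i
  have h1 : g (cmpMapO W hΔ p hpO x) = 0 := DFunLike.congr_fun hφ x
  have h2 : (fun j : Fin 2 => if i = j then (1 : ResidueField O) else 0) = Pi.single i 1 := by
    funext j
    by_cases hij : j = i
    · subst hij
      rw [if_pos rfl, Pi.single_eq_same]
    · rw [if_neg (Ne.symm hij), Pi.single_eq_of_ne hij]
  rw [h2, ← hx, h1, smul_zero]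

end tate

/-! ### the consumer shapes -/

section consumer

variable (W : WeierstrassCurve ℤ) (hΔ : W.Δ ≠ 0) (p : ℕ) [hpf : Fact p.Prime]

include hΔ in
/-- the Prelude's residual representation on `W[p]` has no inertia coinvariants in the supersingular shape -/
theorem noCoinv_residualGaloisRepOf (h : ModPInertiaIrreducible W p)
    (hcard : Nat.card (Submodule.torsionBy ℤ ((WQ' W)⁄Qb).Point p) = p ^ 2)
    (hker : GaloisFactorsThroughFiniteLevel
      (WeierstrassCurve.Affine.Point.galoisRepModuleEnd (K := Qb) ℚ (WQ' W) p))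
    (A : ValuationSubring Qb) (hA : A.LiesOverPrime p) :
    NoCoinv ((WQ' W).residualGaloisRepOf p hcard hker) (A.inertiaSubgroupIn ℚ) := by
  intro f hf
  have h0 := addHom_eq_zero_of_irred (V := Ep (WQ' W) p) (A.inertiaSubgroupIn ℚ) (h A hA)
    (exists_line_Ep (W := W) (p := p) hΔ) f.toAddMonoidHom (fun σ hσ x => hf σ hσ x)
  exact LinearMap.ext fun x => DFunLike.congr_fun h0 x

variable {O : Type} [CommRing O] [IsLocalRing O] [IsAdicComplete (maximalIdeal O) O]
  (hpO : (p : O) ∈ maximalIdeal O)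

/-- the residual Tate module has no inertia coinvariants in the supersingular shape -/
theorem noCoinv_tateRepO_of_ss (h : ModPInertiaIrreducible W p) (A : ValuationSubring Qb)
    (hA : A.LiesOverPrime p) :
    NoCoinv (tateRepO W hΔ p hpO).residual (A.inertiaSubgroupIn ℚ) :=
  noCoinv_tateRepO W hΔ p hpO _ (h A hA)

/-- **the `hss` adapter**: the hypothesis `hss` of `FlatSS.isFlatAt_of_noCoinvariants` for any `ρ` whose residual
representation is a base change of the residual representation of the Tate module of `W`. -/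
theorem hss_of_isEquiv (h : ModPInertiaIrreducible W p) {T : Type} [CommRing T] [IsLocalRing T]
    (ρ : GaloisRepAdic T) (j : ResidueField O →+* ResidueField T)
    (he : ρ.residual.IsEquiv ((tateRepO W hΔ p hpO).residual.baseChangeAlong j)) :
    ∀ P : ValuationSubring Qb, P.LiesOverPrime p →
      ∀ f : ρ.residual.V →ₗ[ResidueField T] ResidueField T,
        (∀ σ ∈ P.inertiaSubgroupIn ℚ, ∀ x : ρ.residual.V, f (ρ.residual.ρ σ x) = f x) → f = 0 :=
  fun P hP => NoCoinv.of_isEquiv he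
    (NoCoinv.baseChangeAlong j (noCoinv_tateRepO_of_ss W hΔ p hpO h P hP))

end consumer

end Fermat.Agent.S59lib.Ord
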