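/-
S59lib / Ord / An1  (helper9) — Project I, `LocalOrdAt` for `W` good ordinary at `p`.

The analytic input of the Kummer computation: the ring `A1 = A ∩ Fix(I₁)` (integers of
`K₁ = K₀(ζ_p)`) with "uniformiser" `ζ - 1` satisfies the standing hypotheses of the analytic calculus;
the group law `FzW z₁ z₂ = z(P(z₁) + P(z₂))` and the function
`PhiW (z, y) = ∏_{k ∈ s} F(F(z, y), λ_k)` (`λ_k ∈ A1` small) are analytic over `(A1, ζ - 1)`; and
the approximants of an analytic function have integral coefficients (`exists_approx_int`).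
-/
import Fermat.Agent.S44lib.F.Fixed
import Fermat.Agent.S59lib.Flat.Germ
import Fermat.Agent.S44lib.Iface

set_option autoImplicit false
set_option linter.unusedSectionVars false
set_option linter.style.haveILetI false

noncomputable section

namespace Fermat.Agent.S59lib.Ord

open Fermat.Agent.S19lib Fermat.Agent.S19lib.An Fermat.Agent.S58lib.Tate Fermat.Agent.S05lib
open Fermat.Agent.S59lib.Flat Fermat.Agent.S44lib Fermat.Agent.S44lib.F WeierstrassCurve

local notation "Qb" => AlgebraicClosure ℚ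
local notation "GQ" => (AlgebraicClosure ℚ ≃ₐ[ℚ] AlgebraicClosure ℚ)

/-- the `I₁`-fixed elements of `A`: the integers of `K₁ = K₀(ζ_p)` -/
def A1 (A : ValuationSubring Qb) (p : ℕ) : Subring Qb where
  carrier := {a | a ∈ A ∧ ∀ σ ∈ IOne A p, σ a = a}
  mul_mem' := fun {a b} ha hb => ⟨A.mul_mem _ _ ha.1 hb.1, fun σ hσ => by
    rw [map_mul, ha.2 σ hσ, hb.2 σ hσ]⟩
  one_mem' := ⟨A.one_mem, fun σ _ => map_one σ⟩
  add_mem' := fun {a b} ha hb => ⟨A.add_mem _ _ ha.1 hb.1, fun σ hσ => by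
    rw [map_add, ha.2 σ hσ, hb.2 σ hσ]⟩
  zero_mem' := ⟨A.zero_mem, fun σ _ => map_zero σ⟩
  neg_mem' := fun {a} ha => ⟨A.neg_mem _ ha.1, fun σ hσ => by rw [map_neg, ha.2 σ hσ]⟩

variable {A : ValuationSubring Qb} {p : ℕ} [hp : Fact p.Prime]

theorem mem_A1_iff {a : Qb} : a ∈ A1 A p ↔ a ∈ A ∧ ∀ σ ∈ IOne A p, σ a = a := Iff.rfl

/-- the standing hypotheses of the analytic calculus for `R = A1`, `ϖ = ζ - 1`. -/
theorem coef_A1 (hA : A.LiesOverPrime p) {ζ : Qb} (hζ : IsPrimitiveRoot ζ p) :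
    Coef A (A1 A p) (ζ - 1) where
  hR := fun a ha => ha.1
  hϖ := val_zeta_sub_one_lt_one A.valuation hp.out hζ (val_p_lt_one hA)
  hε := fun ε hε hlt => val_le_of_IOne_fixed hp.out hA hζ hε.2 hlt
  hRinv := by
    intro r hr hv
    refine ⟨(A.valuation_le_one_iff _).mp ?_, fun σ hσ => ?_⟩
    · rw [map_inv₀, hv, inv_one]
    · rw [map_inv₀, hr.2 σ hσ]
  hr := by
    have hℓ1 := val_zeta_sub_one_lt_one A.valuation hp.out hζ (val_p_lt_one hA)
    have hℓ0 := val_zeta_sub_one_ne_zero A.valuation hp.out hζ (val_p_ne_zero (A := A) hp.out)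
    obtain ⟨r, hr⟩ := IsAlgClosed.exists_pow_nat_eq (ζ - 1 : Qb) (n := 2) (by norm_num)
    have hv : A.valuation r ^ 2 = A.valuation (ζ - 1) := by rw [← map_pow, hr]
    have hr1 : A.valuation r < 1 := by
      by_contra h
      have h1 : 1 ≤ A.valuation r := not_lt.mp h
      have : 1 ≤ A.valuation r ^ 2 := one_le_pow₀ h1
      rw [hv] at this
      exact absurd hℓ1 (not_lt.mpr this)
    have hr0 : A.valuation r ≠ 0 := by
      intro h0
      rw [h0] at hv
      exact hℓ0 (by rw [← hv]; norm_num)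
    refine ⟨r, ?_, hr1⟩
    rw [← hv, pow_two]
    calc A.valuation r * A.valuation r < 1 * A.valuation r :=
          mul_lt_mul_of_pos_right hr1 (zero_lt_iff.mpr hr0)
      _ = A.valuation r := one_mul _

variable (W : WeierstrassCurve ℤ)

variable (A p) in
/-- the coefficients of `W` are in `A1` -/
theorem coefIn_WB_A1 : CoefIn (A1 A p) (WB W) where
  a₁ := by rw [WB_a₁]; exact intCast_mem _ _
  a₂ := by rw [WB_a₂]; exact intCast_mem _ _
  a₃ := by rw [WB_a₃]; exact intCast_mem _ _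
  a₄ := by rw [WB_a₄]; exact intCast_mem _ _
  a₆ := by rw [WB_a₆]; exact intCast_mem _ _

/-! ### the group law in the parameter -/

/-- the formal group law of `W` at `A`: `z(P(z₁) + P(z₂))` -/
def FzW (W : WeierstrassCurve ℤ) (A : ValuationSubring Qb) (z₁ z₂ : Qb) : Qb :=
  Fz (WB W) z₁ z₂ (wOf (integralModel_WB W A) z₁) (wOf (integralModel_WB W A) z₂)

variable {W}

theorem wc_eq_wOf (hΔ : W.Δ ≠ 0) {P : Pts (WQ' W)} (hP : InE1 A.valuation (WB W) P) :
    wc (W := WB W) P = wOf (integralModel_WB W A) (zc (W := WB W) P) := by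
  haveI := isElliptic_WB W hΔ
  have h := wc_ptOf (A := A) W (val_zc_lt (integralModel_WB W A) hP)
  rwa [ptOf_zc (integralModel_WB W A) hP] at h

/-- `FzW` computes the parameter of a sum -/
theorem FzW_zc (hΔ : W.Δ ≠ 0) (h2 : A.valuation (2 : Qb) = 1) {P Q : Pts (WQ' W)}
    (hP : InE1 A.valuation (WB W) P) (hQ : InE1 A.valuation (WB W) Q) :
    FzW W A (zc (W := WB W) P) (zc (W := WB W) Q) = zc (W := WB W) (P + Q) := by
  unfold FzW
  rw [zc_add (integralModel_WB W A) h2 hP hQ, wc_eq_wOf hΔ hP, wc_eq_wOf hΔ hQ]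

theorem val_FzW_lt (hΔ : W.Δ ≠ 0) (h2 : A.valuation (2 : Qb) = 1) {z₁ z₂ : Qb}
    (h₁ : A.valuation z₁ < 1) (h₂ : A.valuation z₂ < 1) : A.valuation (FzW W A z₁ z₂) < 1 := by
  haveI := isElliptic_WB W hΔ
  have hP := inE1_ptOf (integralModel_WB W A) h₁
  have hQ := inE1_ptOf (integralModel_WB W A) h₂
  have := FzW_zc hΔ h2 hP hQ
  rw [zc_ptOf _ h₁, zc_ptOf _ h₂] at this
  rw [this]
  exact val_zc_lt (integralModel_WB W A) (InE1.add (integralModel_WB W A) hP hQ)

/-! ### the function `Φ` -/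

/-- `Φ (z, y) = ∏_{k ∈ s} F (F (z, y), λ_k)` -/
def PhiW (W : WeierstrassCurve ℤ) (A : ValuationSubring Qb) {κ : Type*} (s : Finset κ)
    (lam : κ → Qb) (u : Fin 2 → Qb) : Qb :=
  ∏ k ∈ s, FzW W A (FzW W A (u 0) (u 1)) (lam k)

theorem an_FzW {R : Subring Qb} {ϖ : Qb} (C : Coef A R ϖ) (hWR : CoefIn R (WB W)) :
    AnalyticOn A R ϖ (fun u : Fin 2 → Qb => FzW W A (u 0) (u 1)) :=
  an_Fz C hWR (integralModel_WB W A) (ι := Fin 2) 0 1

theorem an_PhiW {R : Subring Qb} {ϖ : Qb} (C : Coef A R ϖ) (hWR : CoefIn R (WB W))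
    (hΔ : W.Δ ≠ 0) (h2 : A.valuation (2 : Qb) = 1) {κ : Type*} (s : Finset κ) (lam : κ → Qb)
    (hlam : ∀ k ∈ s, lam k ∈ R ∧ A.valuation (lam k) < 1) :
    AnalyticOn A R ϖ (PhiW W A s lam) := by
  unfold PhiW
  refine analyticOn_finset_prod A R C.hR C.mem s (fun k hk => ?_)
  have hF := an_FzW C hWR
  have h := analyticOn_comp A R C.hR C.hϖ C.hε (f := fun v : Fin 2 → Qb => FzW W A (v 0) (v 1))
    (g := fun (j : Fin 2) (u : Fin 2 → Qb) => ![FzW W A (u 0) (u 1), lam k] j) hF (fun j => by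
      fin_cases j
      · exact hF
      · exact an_const C (hlam k hk).1) (fun j u hu => by
      fin_cases j
      · exact val_FzW_lt hΔ h2 (hu 0) (hu 1)
      · exact (hlam k hk).2)
  exact h

/-! ### integral approximants -/

/-- the approximants of an analytic function, with coefficients in `A`. -/
theorem exists_approx_int {R : Subring Qb} {ϖ : Qb} (hR : R ≤ A.toSubring) {ι : Type*}
    {f : (ι → Qb) → Qb} (hf : AnalyticOn A R ϖ f) (M : ℕ) :
    ∃ P : MvPolynomial ι Qb, (∀ m, A.valuation (P.coeff m) ≤ 1) ∧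
      ∀ u : ι → Qb, (∀ i, A.valuation (u i) < 1) → ∀ c : A.ValueGroup, A.valuation ϖ ≤ c →
        (∀ i, A.valuation (u i) ≤ c) → A.valuation (f u - MvPolynomial.eval u P) ≤ c ^ M := by
  obtain ⟨P, hP, hPf⟩ := hf M
  exact ⟨P, fun m => (A.valuation_le_one_iff _).mpr (hR (hP m)), fun u hu c hc huc =>
    hPf u hu c hc huc⟩

end Fermat.Agent.S59lib.Ord
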