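/-
S59lib / Ord / Zeros  (helper9) — Project I.

**An analytic function of one variable is divisible by the product of its zeros**
(`val_le_prod_of_zeros`): `g` analytic over `R ⊆ A` in the sense of `S19lib.AnalyticOn`, vanishing at
the distinct points `r ∈ Z` of the open unit disc, satisfies `v (g t) ≤ ∏_{r ∈ Z} v (t - r)`.
Proof on the polynomial approximants (no completeness): an integral polynomial which is small at `N`
nodes is, up to a small error, divisible by the product of the `t - r` (`val_eval_le_of_nodes`,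
iterated synthetic division).
-/
import Fermat.Agent.S19lib.An.Defs

set_option autoImplicit false
set_option linter.unusedSectionVars false

noncomputable section

namespace Fermat.Agent.S59lib.Ord

open Fermat.Agent.S19lib Polynomial

variable {L : Type*} [Field L] {Γ₀ : Type*} [LinearOrderedCommGroupWithZero Γ₀] (v : Valuation L Γ₀)

/-- evaluation of an integral polynomial at an integral point is integral -/
theorem val_eval_le_one {P : L[X]} (hP : ∀ n, v (P.coeff n) ≤ 1) {t : L} (ht : v t ≤ 1) :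
    v (P.eval t) ≤ 1 := by
  rw [eval_eq_sum_range]
  refine Valuation.map_sum_le _ (fun i _ => ?_)
  rw [map_mul, map_pow]
  exact mul_le_one' (hP i) (pow_le_one₀ zero_le ht)

/-- synthetic division by `X - r` preserves integrality -/
theorem val_coeff_divByMonic_le_one {P : L[X]} (hP : ∀ n, v (P.coeff n) ≤ 1) {r : L} (hr : v r ≤ 1)
    (n : ℕ) : v ((P /ₘ (X - C r)).coeff n) ≤ 1 := by
  rw [coeff_divByMonic_X_sub_C]
  refine Valuation.map_sum_le _ (fun i _ => ?_)
  rw [map_mul, map_pow]
  exact mul_le_one' (pow_le_one₀ zero_le hr) (hP i)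

theorem eval_eq_add_mul_divByMonic (P : L[X]) (r t : L) :
    P.eval t = P.eval r + (t - r) * (P /ₘ (X - C r)).eval t := by
  have h := modByMonic_add_div P (X - C r)
  rw [modByMonic_X_sub_C_eq_C_eval] at h
  have := congrArg (eval t) h
  rw [eval_add, eval_mul, eval_C, eval_sub, eval_X, eval_C] at this
  exact this.symm

/-- **an integral polynomial small at `N` nodes** is divisible by `∏ (t - r)` up to a small error. -/
theorem val_eval_le_of_nodes {δ : Γ₀} (hδ0 : δ ≠ 0) (hδ1 : δ ≤ 1) :
    ∀ (rs : List L) (P : L[X]) (ε : Γ₀), (∀ n, v (P.coeff n) ≤ 1) → (∀ r ∈ rs, v r ≤ 1) →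
      rs.Pairwise (fun a b => δ ≤ v (a - b)) → (∀ r ∈ rs, v (P.eval r) ≤ ε) →
      ∀ t : L, v t ≤ 1 → v (P.eval t) ≤ max ((rs.map (fun r => v (t - r))).prod) (ε / δ ^ rs.length) := by
  intro rs
  induction rs with
  | nil =>
    intro P ε hP _ _ _ t ht
    rw [List.map_nil, List.prod_nil]
    exact le_trans (val_eval_le_one v hP ht) (le_max_left _ _)
  | cons r rs ih =>
    intro P ε hP hrs hpw hε t ht
    have hr : v r ≤ 1 := hrs r (List.mem_cons_self)
    have hP₁ := val_coeff_divByMonic_le_one v hP hr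
    rw [List.pairwise_cons] at hpw
    have hε₁ : ∀ s ∈ rs, v ((P /ₘ (X - C r)).eval s) ≤ ε / δ := by
      intro s hs
      have h1 := eval_eq_add_mul_divByMonic P r s
      have h2 : (s - r) * (P /ₘ (X - C r)).eval s = P.eval s - P.eval r := by rw [h1]; ring
      have h3 : v (s - r) * v ((P /ₘ (X - C r)).eval s) ≤ ε := by
        rw [← map_mul, h2]
        exact le_trans (Valuation.map_sub _ _ _)
          (max_le (hε s (List.mem_cons_of_mem _ hs)) (hε r (List.mem_cons_self)))
      have h4 : δ ≤ v (s - r) := by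
        have := hpw.1 s hs
        rwa [← Valuation.map_neg, neg_sub] at this
      rw [le_div_iff₀ (zero_lt_iff.mpr hδ0)]
      calc v ((P /ₘ (X - C r)).eval s) * δ ≤ v ((P /ₘ (X - C r)).eval s) * v (s - r) :=
            mul_le_mul' le_rfl h4
        _ = v (s - r) * v ((P /ₘ (X - C r)).eval s) := mul_comm _ _
        _ ≤ ε := h3
    have key := ih (P /ₘ (X - C r)) (ε / δ) hP₁ (fun s hs => hrs s (List.mem_cons_of_mem _ hs))
      hpw.2 hε₁ t ht
    rw [eval_eq_add_mul_divByMonic P r t, List.map_cons, List.prod_cons, List.length_cons]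
    have htr : v (t - r) ≤ 1 := le_trans (Valuation.map_sub _ _ _) (max_le ht hr)
    have hδpos : 0 < δ := zero_lt_iff.mpr hδ0
    have e1 : ε / δ / δ ^ rs.length = ε / δ ^ (rs.length + 1) := by
      rw [div_div, pow_succ']
    have hεle : ε ≤ ε / δ ^ (rs.length + 1) := by
      rw [le_div_iff₀ (pow_pos hδpos _)]
      calc ε * δ ^ (rs.length + 1) ≤ ε * 1 := mul_le_mul' le_rfl (pow_le_one₀ zero_le hδ1)
        _ = ε := mul_one _
    refine le_trans (Valuation.map_add _ _ _) (max_le ?_ ?_)
    · exact le_trans (hε r (List.mem_cons_self)) (le_trans hεle (le_max_right _ _))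
    · rw [map_mul]
      rcases le_max_iff.mp key with h | h
      · exact le_trans (mul_le_mul' le_rfl h) (le_max_left _ _)
      · rw [e1] at h
        refine le_trans ?_ (le_max_right _ _)
        calc v (t - r) * v ((P /ₘ (X - C r)).eval t) ≤ 1 * (ε / δ ^ (rs.length + 1)) :=
              mul_le_mul' htr h
          _ = _ := one_mul _

/-! ### from approximants to polynomials in one variable -/

/-- the one-variable polynomial of a polynomial in the variables `Fin 1` -/
def toPoly (P : MvPolynomial (Fin 1) L) : L[X] := ∑ m ∈ P.support, monomial (m 0) (P.coeff m)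

theorem eval_toPoly (P : MvPolynomial (Fin 1) L) (t : L) :
    (toPoly P).eval t = MvPolynomial.eval (fun _ => t) P := by
  rw [toPoly, eval_finsetSum, MvPolynomial.eval_eq']
  refine Finset.sum_congr rfl (fun m _ => ?_)
  rw [eval_monomial, Fin.prod_univ_one]

theorem val_coeff_toPoly_le {P : MvPolynomial (Fin 1) L} (hP : ∀ m, v (P.coeff m) ≤ 1) (n : ℕ) :
    v ((toPoly P).coeff n) ≤ 1 := by
  rw [toPoly, finsetSum_coeff]
  refine Valuation.map_sum_le _ (fun m _ => ?_)
  rw [coeff_monomial]
  split_ifs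
  · exact hP m
  · rw [map_zero]; exact zero_le

/-! ### analytic functions and their zeros -/

variable (A : ValuationSubring L) {R : Subring L} {ϖ : L}

/-- **an analytic function of one variable is divisible by the product of its zeros.** -/
theorem val_le_prod_of_zeros (hR : R ≤ A.toSubring) (hϖ : A.valuation ϖ < 1)
    (hrank : ∀ c : A.ValueGroup, c < 1 → ∀ d : A.ValueGroup, d ≠ 0 → ∃ M : ℕ, c ^ M ≤ d)
    {g : (Fin 1 → L) → L} (hg : AnalyticOn A R ϖ g) (Z : Finset L)
    (hZ1 : ∀ r ∈ Z, A.valuation r < 1) (hZ0 : ∀ r ∈ Z, g (fun _ => r) = 0) {t : L}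
    (ht : A.valuation t < 1) :
    A.valuation (g (fun _ => t)) ≤ ∏ r ∈ Z, A.valuation (t - r) := by
  classical
  by_cases htZ : t ∈ Z
  · rw [hZ0 t htZ, map_zero]; exact zero_le
  set D : A.ValueGroup := ∏ r ∈ Z, A.valuation (t - r) with hD
  have hD0 : D ≠ 0 := by
    rw [hD, Finset.prod_ne_zero_iff]
    intro r hr
    rw [Valuation.ne_zero_iff, sub_ne_zero]
    rintro rfl
    exact htZ hr
  -- the separation of the zeros
  set δ : A.ValueGroup := ∏ ab ∈ Z.offDiag, A.valuation (ab.1 - ab.2) with hδ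
  have hfac1 : ∀ ab ∈ Z.offDiag, A.valuation (ab.1 - ab.2) ≤ 1 := by
    intro ab hab
    rw [Finset.mem_offDiag] at hab
    exact le_trans (Valuation.map_sub _ _ _) (max_le (hZ1 _ hab.1).le (hZ1 _ hab.2.1).le)
  have hδ0 : δ ≠ 0 := by
    rw [hδ, Finset.prod_ne_zero_iff]
    intro ab hab
    rw [Finset.mem_offDiag] at hab
    rw [Valuation.ne_zero_iff, sub_ne_zero]
    exact hab.2.2
  have hδ1 : δ ≤ 1 := Finset.prod_le_one' hfac1
  have hδle : ∀ a ∈ Z, ∀ b ∈ Z, a ≠ b → δ ≤ A.valuation (a - b) := by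
    intro a ha b hb hab
    have hmem : (a, b) ∈ Z.offDiag := Finset.mem_offDiag.mpr ⟨ha, hb, hab⟩
    rw [hδ, ← Finset.mul_prod_erase _ _ hmem]
    calc A.valuation (a - b) * ∏ x ∈ Z.offDiag.erase (a, b), A.valuation (x.1 - x.2)
        ≤ A.valuation (a - b) * 1 := mul_le_mul' le_rfl
          (Finset.prod_le_one' (fun x hx => hfac1 x (Finset.mem_of_mem_erase hx)))
      _ = A.valuation (a - b) := mul_one _
  -- the radius
  obtain ⟨x₀, hx₀, hmax⟩ := Finset.exists_max_image (insert ϖ (insert t Z)) (fun x => A.valuation x)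
    ⟨ϖ, Finset.mem_insert_self _ _⟩
  have hall : ∀ x ∈ insert ϖ (insert t Z), A.valuation x < 1 := by
    intro x hx
    rw [Finset.mem_insert, Finset.mem_insert] at hx
    rcases hx with rfl | rfl | hx
    · exact hϖ
    · exact ht
    · exact hZ1 x hx
  set c : A.ValueGroup := A.valuation x₀ with hc
  have hc1 : c < 1 := hall x₀ hx₀
  have hcϖ : A.valuation ϖ ≤ c := hmax ϖ (Finset.mem_insert_self _ _)
  have hct : A.valuation t ≤ c := hmax t (Finset.mem_insert_of_mem (Finset.mem_insert_self _ _))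
  have hcZ : ∀ r ∈ Z, A.valuation r ≤ c := fun r hr =>
    hmax r (Finset.mem_insert_of_mem (Finset.mem_insert_of_mem hr))
  -- the order of approximation
  obtain ⟨M, hM⟩ := hrank c hc1 (D * δ ^ Z.card) (mul_ne_zero hD0 (pow_ne_zero _ hδ0))
  obtain ⟨P, hP, hPg⟩ := hg M
  have hPint : ∀ m, A.valuation (P.coeff m) ≤ 1 := fun m =>
    (A.valuation_le_one_iff _).mpr (hR (hP m))
  have happ : ∀ x : L, A.valuation x < 1 → A.valuation x ≤ c →
      A.valuation (g (fun _ => x) - (toPoly P).eval x) ≤ c ^ M := by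
    intro x hx1 hxc
    rw [eval_toPoly]
    exact hPg (fun _ => x) (fun _ => hx1) c hcϖ (fun _ => hxc)
  -- the polynomial bound
  have hnodes := val_eval_le_of_nodes A.valuation hδ0 hδ1 Z.toList (toPoly P) (c ^ M)
    (val_coeff_toPoly_le A.valuation hPint)
    (fun r hr => (hZ1 r (Finset.mem_toList.mp hr)).le)
    (List.Pairwise.imp_of_mem (fun {a b} ha hb hab =>
      hδle a (Finset.mem_toList.mp ha) b (Finset.mem_toList.mp hb) hab) (Finset.nodup_toList Z))
    (fun r hr => by
      have hrZ := Finset.mem_toList.mp hr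
      have := happ r (hZ1 r hrZ) (hcZ r hrZ)
      rwa [hZ0 r hrZ, zero_sub, Valuation.map_neg] at this)
    t ht.le
  rw [Finset.length_toList, Finset.prod_map_toList] at hnodes
  have hMD : c ^ M ≤ D :=
    le_trans hM (by
      calc D * δ ^ Z.card ≤ D * 1 := mul_le_mul' le_rfl (pow_le_one₀ zero_le hδ1)
        _ = D := mul_one _)
  have hq : A.valuation ((toPoly P).eval t) ≤ D := by
    refine le_trans hnodes (max_le le_rfl ?_)
    rw [div_le_iff₀ (pow_pos (zero_lt_iff.mpr hδ0) _)]
    exact hM
  have e : g (fun _ => t) = (g (fun _ => t) - (toPoly P).eval t) + (toPoly P).eval t := by ring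
  rw [e]
  exact le_trans (Valuation.map_add _ _ _) (max_le (le_trans (happ t ht hct) hMD) hq)

end Fermat.Agent.S59lib.Ord
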