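/-
S59lib / Ord / Jensen  (helper9) — Project I.

**The `p`-torsion of the kernel of reduction is sparse** (`le_prod_val_zc`): for an integral
Weierstrass model `W` over `ℤ`, an odd prime `p`, a place `A` of `ℚ̄` over `p`, and any finite set `S` of
non-zero `p`-torsion points in the kernel of reduction `E₁`,  `v p ≤ ∏_{x ∈ S} v (z(x))`.
(The analytic function `[p](z) = p z + …` vanishes at `0` and at the `z(x)`, hence is divisible by
`z ∏ (z - z(x))`: `Zeros.val_le_prod_of_zeros`; evaluate at a very small `t`.)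
-/
import Fermat.Agent.S19lib.F.RankOne
import Fermat.Agent.S59lib.Ord.An1
import Fermat.Agent.S59lib.Ord.Zeros

set_option autoImplicit false
set_option linter.unusedSectionVars false
set_option linter.style.haveILetI false

noncomputable section

namespace Fermat.Agent.S59lib.Ord

open Fermat.Agent.S19lib Fermat.Agent.S19lib.An Fermat.Agent.S58lib.Tate Fermat.Agent.S05lib
open Fermat.Agent.S59lib.Flat Fermat.Agent.S44lib.F WeierstrassCurve

local notation "Qb" => AlgebraicClosure ℚ
local notation "GQ" => (AlgebraicClosure ℚ ≃ₐ[ℚ] AlgebraicClosure ℚ)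

variable {p : ℕ} [hp : Fact p.Prime] {A : ValuationSubring Qb} {W : WeierstrassCurve ℤ}

/-- rank one: the value group of a place of `ℚ̄` over `p` is archimedean -/
theorem rankOne_of_liesOver (hA : A.LiesOverPrime p) (c : A.ValueGroup) (hc : c < 1)
    (d : A.ValueGroup) (hd : d ≠ 0) : ∃ M : ℕ, c ^ M ≤ d := by
  obtain ⟨x, rfl⟩ := A.valuation_surjective c
  obtain ⟨y, rfl⟩ := A.valuation_surjective d
  exact Fermat.Agent.S19lib.F.exists_pow_le A hp.out hA ((A.mem_nonunits_iff).mpr hc)
    ((Valuation.ne_zero_iff _).mp hd)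

/-- multiplication by `n` in the parameter: `[0] z = 0`, `[n + 1] z = F([n] z, z)` -/
def iterF (W : WeierstrassCurve ℤ) (A : ValuationSubring Qb) : ℕ → Qb → Qb
  | 0, _ => 0
  | n + 1, z => FzW W A (iterF W A n z) z

theorem iterF_zc (hΔ : W.Δ ≠ 0) (h2 : A.valuation (2 : Qb) = 1) {P : Pts (WQ' W)}
    (hP : InE1 A.valuation (WB W) P) (n : ℕ) :
    iterF W A n (zc (W := WB W) P) = zc (W := WB W) (n • P) := by
  induction n with
  | zero => rw [zero_nsmul, zc_zero]; rfl
  | succ n ih =>
    have hn : InE1 A.valuation (WB W) (n • P) :=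
      (zc_nsmul_estimate (integralModel_WB W A) hP (val_zc_lt (integralModel_WB W A) hP)
        le_rfl n).1
    show FzW W A (iterF W A n (zc (W := WB W) P)) (zc (W := WB W) P) = _
    rw [ih, FzW_zc hΔ h2 hn hP, succ_nsmul]

theorem val_iterF_lt (hΔ : W.Δ ≠ 0) (h2 : A.valuation (2 : Qb) = 1) {z : Qb}
    (hz : A.valuation z < 1) (n : ℕ) : A.valuation (iterF W A n z) < 1 := by
  induction n with
  | zero => show A.valuation (0 : Qb) < 1; rw [map_zero]; exact zero_lt_one
  | succ n ih => exact val_FzW_lt hΔ h2 ih hz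

/-- `[n]` is analytic -/
theorem an_iterF {R : Subring Qb} {ϖ : Qb} (C : Coef A R ϖ) (hWR : CoefIn R (WB W))
    (hΔ : W.Δ ≠ 0) (h2 : A.valuation (2 : Qb) = 1) (n : ℕ) :
    AnalyticOn A R ϖ (fun u : Fin 1 → Qb => iterF W A n (u 0)) := by
  induction n with
  | zero => exact an_const C R.zero_mem
  | succ n ih =>
    have hF := an_FzW (W := W) C hWR
    have h := analyticOn_comp A R C.hR C.hϖ C.hε (f := fun v : Fin 2 → Qb => FzW W A (v 0) (v 1))
      (g := fun (j : Fin 2) (u : Fin 1 → Qb) => ![iterF W A n (u 0), u 0] j) hF (fun j => by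
        fin_cases j
        · exact ih
        · exact an_coord C 0) (fun j u hu => by
        fin_cases j
        · exact val_iterF_lt hΔ h2 (hu 0) n
        · exact hu 0)
    exact h

/-- `zc` is injective on the kernel of reduction -/
theorem zc_injOn (hΔ : W.Δ ≠ 0) {P P' : Pts (WQ' W)} (hP : InE1 A.valuation (WB W) P)
    (hP' : InE1 A.valuation (WB W) P') (h : zc (W := WB W) P = zc (W := WB W) P') : P = P' := by
  haveI := isElliptic_WB W hΔ
  rw [← ptOf_zc (integralModel_WB W A) hP, ← ptOf_zc (integralModel_WB W A) hP', h]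

/-- **the `p`-torsion of the kernel of reduction is sparse.** -/
theorem le_prod_val_zc (hΔ : W.Δ ≠ 0) (hA : A.LiesOverPrime p) (hp2 : p ≠ 2)
    (S : Finset (Pts (WQ' W))) (hS : ∀ x ∈ S, x ≠ 0 ∧ InE1 A.valuation (WB W) x ∧ p • x = 0) :
    A.valuation ((p : ℕ) : Qb) ≤ ∏ x ∈ S, A.valuation (zc (W := WB W) x) := by
  classical
  haveI := isElliptic_WB W hΔ
  have h2 := val_two_eq_one A hA hp2
  have hpv1 := val_p_lt_one hA
  have hpv0 := val_p_ne_zero (A := A) hp.out
  have hp0 : ((p : ℕ) : Qb) ≠ 0 := (Valuation.ne_zero_iff _).mp hpv0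
  rcases S.eq_empty_or_nonempty with rfl | ⟨x₁, hx₁⟩
  · rw [Finset.prod_empty]; exact hpv1.le
  have hz0 : ∀ x ∈ S, zc (W := WB W) x ≠ 0 := fun x hx h =>
    (hS x hx).1 (by
      have := zc_injOn hΔ (hS x hx).2.1 (inE1_zero (v := A.valuation) (W := WB W))
        (by rw [h, zc_zero])
      exact this)
  have hz1 : ∀ x ∈ S, A.valuation (zc (W := WB W) x) < 1 := fun x hx =>
    val_zc_lt (integralModel_WB W A) (hS x hx).2.1
  -- the test point
  set t : Qb := ((p : ℕ) : Qb) * ∏ x ∈ S, zc (W := WB W) x with ht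
  have ht0 : t ≠ 0 := mul_ne_zero hp0 (Finset.prod_ne_zero_iff.mpr hz0)
  have htv : A.valuation t = A.valuation ((p : ℕ) : Qb) * ∏ x ∈ S, A.valuation (zc (W := WB W) x) := by
    rw [ht, map_mul, map_prod]
  have hprod1 : ∀ x ∈ S, ∏ y ∈ S, A.valuation (zc (W := WB W) y) ≤ A.valuation (zc (W := WB W) x) := by
    intro x hx
    rw [← Finset.mul_prod_erase _ _ hx]
    calc A.valuation (zc (W := WB W) x) * ∏ y ∈ S.erase x, A.valuation (zc (W := WB W) y)
        ≤ A.valuation (zc (W := WB W) x) * 1 := mul_le_mul' le_rfl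
          (Finset.prod_le_one' (fun y hy => (hz1 y (Finset.mem_of_mem_erase hy)).le))
      _ = _ := mul_one _
  have htx : ∀ x ∈ S, A.valuation t < A.valuation (zc (W := WB W) x) := by
    intro x hx
    rw [htv]
    calc A.valuation ((p : ℕ) : Qb) * ∏ y ∈ S, A.valuation (zc (W := WB W) y)
        ≤ A.valuation ((p : ℕ) : Qb) * A.valuation (zc (W := WB W) x) :=
          mul_le_mul' le_rfl (hprod1 x hx)
      _ < 1 * A.valuation (zc (W := WB W) x) :=
          mul_lt_mul_of_pos_right hpv1 (zero_lt_iff.mpr ((Valuation.ne_zero_iff _).mpr (hz0 x hx)))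
      _ = _ := one_mul _
  have htp : A.valuation t < A.valuation ((p : ℕ) : Qb) := by
    rw [htv]
    calc A.valuation ((p : ℕ) : Qb) * ∏ y ∈ S, A.valuation (zc (W := WB W) y)
        ≤ A.valuation ((p : ℕ) : Qb) * A.valuation (zc (W := WB W) x₁) :=
          mul_le_mul' le_rfl (hprod1 x₁ hx₁)
      _ < A.valuation ((p : ℕ) : Qb) * 1 :=
          mul_lt_mul_of_pos_left (hz1 x₁ hx₁) (zero_lt_iff.mpr hpv0)
      _ = _ := mul_one _
  have ht1 : A.valuation t < 1 := lt_trans htp hpv1
  have htpos : 0 < A.valuation t := zero_lt_iff.mpr ((Valuation.ne_zero_iff _).mpr ht0)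
  -- the value of `[p]` at `t`
  have hPt := inE1_ptOf (integralModel_WB W A) ht1
  have hft : A.valuation (iterF W A p t) = A.valuation ((p : ℕ) : Qb) * A.valuation t := by
    have h1 := iterF_zc hΔ h2 hPt p
    rw [zc_ptOf (integralModel_WB W A) ht1] at h1
    have h3 := (zc_nsmul_estimate (integralModel_WB W A) hPt (t := A.valuation t) ht1
      (by rw [zc_ptOf (integralModel_WB W A) ht1]) p).2
    rw [zc_ptOf (integralModel_WB W A) ht1, ← h1] at h3
    have e : iterF W A p t = ((p : ℕ) : Qb) * t + (iterF W A p t - ((p : ℕ) : Qb) * t) := by ring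
    rw [e, Valuation.map_add_eq_of_lt_left, map_mul]
    rw [map_mul]
    refine lt_of_le_of_lt h3 ?_
    rw [pow_two]
    exact mul_lt_mul_of_pos_right htp htpos
  -- the zeros
  set Z : Finset Qb := insert 0 (S.image (fun x => zc (W := WB W) x)) with hZ
  have h0S : (0 : Qb) ∉ S.image (fun x => zc (W := WB W) x) := by
    intro h
    obtain ⟨x, hx, hx0⟩ := Finset.mem_image.mp h
    exact hz0 x hx hx0
  have hinj : Set.InjOn (fun x => zc (W := WB W) x) (S : Set (Pts (WQ' W))) := by
    intro x hx y hy hxy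
    exact zc_injOn hΔ (hS x hx).2.1 (hS y hy).2.1 hxy
  have hC := coef_A0 A hA
  have key := val_le_prod_of_zeros A hC.hR hC.hϖ (rankOne_of_liesOver hA)
    (an_iterF hC (coefIn_WB W A) hΔ h2 p) Z
    (by
      intro r hr
      rw [hZ, Finset.mem_insert, Finset.mem_image] at hr
      rcases hr with rfl | ⟨x, hx, rfl⟩
      · rw [map_zero]; exact zero_lt_one
      · exact hz1 x hx)
    (by
      intro r hr
      rw [hZ, Finset.mem_insert, Finset.mem_image] at hr
      rcases hr with rfl | ⟨x, hx, rfl⟩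
      · show iterF W A p 0 = 0
        have := iterF_zc hΔ h2 (inE1_zero (v := A.valuation) (W := WB W)) p
        rw [zc_zero, nsmul_zero, zc_zero] at this
        exact this
      · show iterF W A p (zc (W := WB W) x) = 0
        rw [iterF_zc hΔ h2 (hS x hx).2.1, (hS x hx).2.2, zc_zero])
    ht1
  have key' : A.valuation (iterF W A p t) ≤
      A.valuation t * ∏ x ∈ S, A.valuation (zc (W := WB W) x) := by
    refine le_trans key ?_
    rw [hZ, Finset.prod_insert h0S, sub_zero, Finset.prod_image hinj]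
    refine mul_le_mul' le_rfl (le_of_eq (Finset.prod_congr rfl (fun x hx => ?_)))
    have e : t - zc (W := WB W) x = -(zc (W := WB W) x) + t := by ring
    rw [e, Valuation.map_add_eq_of_lt_left _ (by rw [Valuation.map_neg]; exact htx x hx),
      Valuation.map_neg]
  rw [hft, mul_comm] at key'
  exact le_of_mul_le_mul_left key' htpos

end Fermat.Agent.S59lib.Ord
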