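/-
S59lib / Ord / Cyclo  (helper9) — Project I, `LocalOrdAt` for `W` good ordinary at `p`.

* `IA_map_cycloChar_eq_top` : `p` is totally ramified in `ℚ(ζ_p)`: the inertia group at a place `A` over
  `p` surjects onto `(ℤ/p)ˣ` (norm trick: `∏_{a ∈ H} (ζ^a - 1)` is inertia-fixed of valuation
  `v(ζ - 1)^{#H}`).
* `val_eq_of_tame` : an `I₁`-fixed `λ` with `v p ≤ v λ < 1` on which `I_A` acts through the fundamental
  character (`g λ ≡ a λ mod λ 𝔪` when `g ζ = ζ^a`) is a uniformiser of `K₁`: `v λ = v (ζ - 1)`.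
* `val_zc_lineOrd` : the parameters of the non-zero points of the line `L = W[p] ∩ E₁` have the
  valuation of `ζ - 1`.
-/
import Fermat.Agent.S44lib.F.Fixed
import Fermat.Agent.S56lib.TW.Cyclo
import Fermat.Agent.S59lib.Ord.Line

set_option autoImplicit false
set_option linter.unusedSectionVars false
set_option linter.style.haveILetI false

noncomputable section

namespace Fermat.Agent.S59lib.Ord

open Fermat.Agent.S19lib Fermat.Agent.S58lib.Tate Fermat.Agent.S05lib Fermat.Agent.S59lib.Flat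
open Fermat.Agent.S44lib Fermat.Agent.S44lib.F WeierstrassCurve ExtCitation
open Fermat.Agent.S56lib.TW (cycloChar_spec)

local notation "Qb" => AlgebraicClosure ℚ
local notation "GQ" => (AlgebraicClosure ℚ ≃ₐ[ℚ] AlgebraicClosure ℚ)

variable {p : ℕ} [hp : Fact p.Prime] {A : ValuationSubring Qb}

/-- a unit of `ZMod p` has a value prime to `p` -/
theorem not_dvd_val_unit (k : (ZMod p)ˣ) : ¬ p ∣ ((k : (ZMod p)ˣ) : ZMod p).val := by
  haveI : NeZero p := ⟨hp.out.ne_zero⟩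
  intro h
  have h1 : (((k : (ZMod p)ˣ) : ZMod p).val : ZMod p) = 0 :=
    (ZMod.natCast_eq_zero_iff _ _).mpr h
  rw [ZMod.natCast_zmod_val] at h1
  exact k.ne_zero h1

/-- **`p` is totally ramified in `ℚ(ζ_p)`.** -/
theorem IA_map_cycloChar_eq_top (hA : A.LiesOverPrime p) :
    (IA A).map (cycloChar p) = ⊤ := by
  classical
  haveI : NeZero p := ⟨hp.out.ne_zero⟩
  obtain ⟨ζ, hζ⟩ := HasEnoughRootsOfUnity.exists_primitiveRoot Qb p
  set H : Subgroup (ZMod p)ˣ := (IA A).map (cycloChar p) with hH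
  set β : Qb := ∏ k : H, (ζ ^ (((k : (ZMod p)ˣ) : ZMod p)).val - 1) with hβ
  have hpv1 := val_p_lt_one hA
  have hpv0 := val_p_ne_zero (A := A) hp.out
  have hℓ := val_zeta_sub_one_pow A.valuation hp.out hζ
  have hℓ1 := val_zeta_sub_one_lt_one A.valuation hp.out hζ hpv1
  have hℓ0 := val_zeta_sub_one_ne_zero A.valuation hp.out hζ hpv0
  have hfix : ∀ g ∈ IA A, g β = β := by
    intro g hg
    have hgH : cycloChar p g ∈ H := Subgroup.mem_map_of_mem _ hg
    rw [hβ, map_prod]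
    refine Fintype.prod_equiv (Equiv.mulLeft (⟨cycloChar p g, hgH⟩ : H)) _ _ (fun k => ?_)
    rw [map_sub, map_one, map_pow, cycloChar_spec p g ζ hζ.pow_eq_one, ← pow_mul]
    congr 1
    rw [Equiv.coe_mulLeft, Subgroup.coe_mul, Units.val_mul, ZMod.val_mul,
      pow_eq_pow_mod _ hζ.pow_eq_one]
  have hβ0 : β ≠ 0 := by
    rw [hβ, Finset.prod_ne_zero_iff]
    intro k _ h0
    have h1 : ζ ^ (((k : (ZMod p)ˣ) : ZMod p)).val = 1 := sub_eq_zero.mp h0
    exact not_dvd_val_unit (k : (ZMod p)ˣ) ((hζ.pow_eq_one_iff_dvd _).mp h1)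
  have hβv : A.valuation β = A.valuation (ζ - 1) ^ (Nat.card H) := by
    have h1 : ∀ k ∈ (Finset.univ : Finset H),
        A.valuation (ζ ^ (((k : (ZMod p)ˣ) : ZMod p)).val - 1) = A.valuation (ζ - 1) := fun k _ =>
      val_zeta_pow_sub_one A.valuation hp.out hζ (not_dvd_val_unit (k : (ZMod p)ˣ))
    rw [hβ, map_prod, Finset.prod_congr rfl h1,
      Finset.prod_const, Finset.card_univ, Nat.card_eq_fintype_card]
  obtain ⟨n, hn⟩ := val_of_IA_fixed hp.out hA hβ0 hfix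
  rw [hβv, ← hℓ, ← zpow_natCast, ← zpow_natCast, ← zpow_mul] at hn
  have hcard := zpow_inj_of_lt_one hℓ0 hℓ1 hn
  have hHpos : 0 < Nat.card H := Nat.card_pos
  have hn1 : 1 ≤ n := by
    by_contra hcon
    push Not at hcon
    have h1 : ((p - 1 : ℕ) : ℤ) * n ≤ 0 :=
      mul_nonpos_of_nonneg_of_nonpos (by positivity) (by omega)
    have h2 : (0 : ℤ) < (Nat.card H : ℤ) := by exact_mod_cast hHpos
    omega
  apply Subgroup.eq_top_of_le_card
  rw [Nat.card_eq_fintype_card (α := (ZMod p)ˣ), ZMod.card_units]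
  have h3 : ((p - 1 : ℕ) : ℤ) ≤ (Nat.card H : ℤ) := by
    rw [hcard]
    calc ((p - 1 : ℕ) : ℤ) = ((p - 1 : ℕ) : ℤ) * 1 := (mul_one _).symm
      _ ≤ ((p - 1 : ℕ) : ℤ) * n := mul_le_mul_of_nonneg_left hn1 (by positivity)
  exact_mod_cast h3

/-- every unit exponent is realised on `μ_p` by an inertia element -/
theorem exists_IA_cycloChar (hA : A.LiesOverPrime p) (u : (ZMod p)ˣ) :
    ∃ g ∈ IA A, cycloChar p g = u := by
  have h : u ∈ (IA A).map (cycloChar p) := by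
    rw [IA_map_cycloChar_eq_top hA]; exact Subgroup.mem_top _
  obtain ⟨g, hg, rfl⟩ := Subgroup.mem_map.mp h
  exact ⟨g, hg, rfl⟩

section val

variable {K : Type*} [Field K] {Γ₀ : Type*} [LinearOrderedCommGroupWithZero Γ₀] (v : Valuation K Γ₀)

theorem val_pow_sub_pow_lt {x y : K} (hx : v x ≤ 1) (hy : v y ≤ 1) (h : v (x - y) < 1) (m : ℕ) :
    v (x ^ m - y ^ m) < 1 := by
  induction m with
  | zero => simp
  | succ m ih =>
    have e : x ^ (m + 1) - y ^ (m + 1) = x * (x ^ m - y ^ m) + (x - y) * y ^ m := by ring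
    rw [e]
    refine lt_of_le_of_lt (Valuation.map_add _ _ _) (max_lt ?_ ?_)
    · rw [map_mul]
      calc v x * v (x ^ m - y ^ m) ≤ 1 * v (x ^ m - y ^ m) := mul_le_mul' hx le_rfl
        _ = v (x ^ m - y ^ m) := one_mul _
        _ < 1 := ih
    · rw [map_mul, map_pow]
      calc v (x - y) * v y ^ m ≤ v (x - y) * 1 := mul_le_mul' le_rfl (pow_le_one₀ zero_le hy)
        _ = v (x - y) := mul_one _
        _ < 1 := h

/-- `1 + ω + … + ω^{a-1} ≡ a` modulo `ω - 1` -/
theorem val_geom_sum_sub_le {ω : K} (hω : v ω ≤ 1) (a : ℕ) :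
    v (∑ i ∈ Finset.range a, ω ^ i - (a : K)) ≤ v (ω - 1) := by
  have e : ∑ i ∈ Finset.range a, ω ^ i - (a : K) = ∑ i ∈ Finset.range a, (ω ^ i - 1) := by
    rw [Finset.sum_sub_distrib, Finset.sum_const, Finset.card_range, nsmul_eq_mul, mul_one]
  rw [e]
  exact Valuation.map_sum_le _ (fun i _ => val_pow_sub_one_le v hω i)

end val

/-- **the tame character pins the valuation.** -/
theorem val_eq_of_tame (hA : A.LiesOverPrime p) {ζ : Qb} (hζ : IsPrimitiveRoot ζ p) {lam : Qb}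
    (h0 : lam ≠ 0) (hfix : ∀ σ ∈ IOne A p, σ lam = lam) (hlt : A.valuation lam < 1)
    (hge : A.valuation ((p : ℕ) : Qb) ≤ A.valuation lam)
    (hact : ∀ g ∈ IA A, ∀ a : ℕ, g ζ = ζ ^ a →
      A.valuation (g lam - (a : Qb) * lam) < A.valuation lam) :
    A.valuation lam = A.valuation (ζ - 1) := by
  classical
  haveI : NeZero p := ⟨hp.out.ne_zero⟩
  have hpv1 := val_p_lt_one hA
  have hpv0 := val_p_ne_zero (A := A) hp.out
  have hℓ := val_zeta_sub_one_pow A.valuation hp.out hζ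
  have hℓ1 := val_zeta_sub_one_lt_one A.valuation hp.out hζ hpv1
  have hℓ0 := val_zeta_sub_one_ne_zero A.valuation hp.out hζ hpv0
  have hπ0 : ζ - 1 ≠ 0 := (Valuation.ne_zero_iff _).mp hℓ0
  obtain ⟨n, hn⟩ := val_of_IOne_fixed hp.out hA hζ h0 hfix
  -- `1 ≤ n ≤ p - 1`
  have hn1 : 1 ≤ n := by
    by_contra hcon
    push Not at hcon
    have h1 : (1 : A.ValueGroup) ≤ A.valuation (ζ - 1) ^ n := by
      obtain ⟨k, rfl⟩ := Int.exists_eq_neg_ofNat (show n ≤ 0 by omega)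
      rw [zpow_neg, zpow_natCast]
      exact (one_le_inv₀ (pow_pos (zero_lt_iff.2 hℓ0) k)).2 (pow_le_one₀ zero_le hℓ1.le)
    rw [← hn] at h1
    exact absurd hlt (not_lt.mpr h1)
  have hn2 : n ≤ ((p - 1 : ℕ) : ℤ) := by
    rw [hn, ← hℓ, ← zpow_natCast] at hge
    exact (zpow_le_zpow_iff_right_of_lt_one₀ (zero_lt_iff.2 hℓ0) hℓ1).mp hge
  obtain ⟨m, rfl⟩ := Int.eq_ofNat_of_zero_le (show 0 ≤ n by omega)
  rw [zpow_natCast] at hn
  have hm1 : 1 ≤ m := by exact_mod_cast hn1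
  have hm2 : m ≤ p - 1 := by exact_mod_cast hn2
  -- a primitive root and an inertia element realising it
  obtain ⟨u, hu⟩ := IsCyclic.exists_generator (α := (ZMod p)ˣ)
  obtain ⟨g, hg, hgu⟩ := exists_IA_cycloChar hA u
  set a : ℕ := ((u : (ZMod p)ˣ) : ZMod p).val with ha
  have hgζ : g ζ = ζ ^ a := by
    rw [cycloChar_spec p g ζ hζ.pow_eq_one, hgu]
  -- `g (ζ - 1) = (ζ - 1) s`
  set s : Qb := ∑ i ∈ Finset.range a, ζ ^ i with hs
  have hζ1 : A.valuation ζ = 1 :=
    Fermat.Agent.S44lib.Q3.val_root_of_unity (v := A.valuation) hp.out.ne_zero hζ.pow_eq_one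
  have hgπ : g (ζ - 1) = (ζ - 1) * s := by
    rw [map_sub, map_one, hgζ, hs, mul_geom_sum]
  have hsa : A.valuation (s - (a : Qb)) < 1 :=
    lt_of_le_of_lt (val_geom_sum_sub_le A.valuation hζ1.le a) hℓ1
  have ha1 : A.valuation ((a : ℕ) : Qb) ≤ 1 := by
    have := G.val_intCast_le_one (A := A) (a : ℤ)
    simpa using this
  have hs1 : A.valuation s ≤ 1 := by
    have e : s = (s - (a : Qb)) + (a : Qb) := by ring
    rw [e]
    exact Valuation.map_add_le _ hsa.le ha1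
  -- the unit `v = lam / (ζ - 1)^m`
  set w : Qb := lam / (ζ - 1) ^ m with hw
  have hlam : lam = w * (ζ - 1) ^ m := by
    rw [hw, div_mul_cancel₀ _ (pow_ne_zero m hπ0)]
  have hwv : A.valuation w = 1 := by
    rw [hw, map_div₀, map_pow, hn, div_self (pow_ne_zero m hℓ0)]
  have hgw : A.valuation (g w - w) < 1 := (inertia_facts A g hg).2 w hwv.le
  have hgw1 : A.valuation (g w) ≤ 1 := ((inertia_facts A g hg).1 w).mpr hwv.le
  have e1 : g lam = g w * ((ζ - 1) ^ m * s ^ m) := by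
    conv_lhs => rw [hlam]
    rw [map_mul, map_pow, hgπ, mul_pow]
  have e2 : g lam - ((a : Qb)) ^ m * lam =
      (ζ - 1) ^ m * ((g w - w) * s ^ m + w * (s ^ m - (a : Qb) ^ m)) := by
    rw [e1]
    conv_lhs => rw [hlam]
    ring
  have h2 : A.valuation (g lam - ((a : Qb)) ^ m * lam) < A.valuation lam := by
    rw [e2, map_mul, map_pow, hn]
    have h3 : A.valuation ((g w - w) * s ^ m + w * (s ^ m - (a : Qb) ^ m)) < 1 := by
      refine lt_of_le_of_lt (Valuation.map_add _ _ _) (max_lt ?_ ?_)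
      · rw [map_mul, map_pow]
        calc A.valuation (g w - w) * A.valuation s ^ m ≤ A.valuation (g w - w) * 1 :=
              mul_le_mul' le_rfl (pow_le_one₀ zero_le hs1)
          _ = A.valuation (g w - w) := mul_one _
          _ < 1 := hgw
      · rw [map_mul, hwv, one_mul]
        exact val_pow_sub_pow_lt A.valuation hs1 ha1 hsa m
    calc A.valuation (ζ - 1) ^ m * A.valuation ((g w - w) * s ^ m + w * (s ^ m - (a : Qb) ^ m))
        < A.valuation (ζ - 1) ^ m * 1 :=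
          mul_lt_mul_of_pos_left h3 (pow_pos (zero_lt_iff.2 hℓ0) m)
      _ = A.valuation (ζ - 1) ^ m := mul_one _
  have h1 := hact g hg a hgζ
  have e3 : (((a : ℤ) ^ m - (a : ℤ) : ℤ) : Qb) * lam =
      (g lam - (a : Qb) * lam) - (g lam - ((a : Qb)) ^ m * lam) := by
    push_cast; ring
  have h4 : A.valuation ((((a : ℤ) ^ m - (a : ℤ) : ℤ) : Qb) * lam) < A.valuation lam := by
    rw [e3]
    exact lt_of_le_of_lt (Valuation.map_sub _ _ _) (max_lt h1 h2)
  have hdvd : ((p : ℕ) : ℤ) ∣ (a : ℤ) ^ m - (a : ℤ) := by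
    by_contra hnd
    have h5 := G.val_intCast_eq_one hp.out hA hnd
    rw [map_mul, h5, one_mul] at h4
    exact lt_irrefl _ h4
  -- in `ZMod p`: `u ^ m = u`
  have hcast : ((a : ℕ) : ZMod p) = ((u : (ZMod p)ˣ) : ZMod p) := by
    rw [ha, ZMod.natCast_zmod_val]
  have h6 : (((u : (ZMod p)ˣ) : ZMod p)) ^ m = ((u : (ZMod p)ˣ) : ZMod p) := by
    have := (ZMod.intCast_zmod_eq_zero_iff_dvd _ p).mpr hdvd
    push_cast at this
    rw [hcast] at this
    exact sub_eq_zero.mp this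
  have h7 : u ^ (m - 1) = 1 := by
    apply Units.ext
    rw [Units.val_pow_eq_pow_val, Units.val_one]
    have h8 : ((u : (ZMod p)ˣ) : ZMod p) ^ (m - 1) * ((u : (ZMod p)ˣ) : ZMod p) =
        1 * ((u : (ZMod p)ˣ) : ZMod p) := by
      rw [← pow_succ, Nat.sub_add_cancel hm1, h6, one_mul]
    exact mul_right_cancel₀ u.ne_zero h8
  have hord : orderOf u = p - 1 := by
    rw [orderOf_eq_card_of_forall_mem_zpowers hu, Nat.card_eq_fintype_card, ZMod.card_units]
  have h9 : p - 1 ∣ m - 1 := by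
    rw [← hord]; exact orderOf_dvd_of_pow_eq_one h7
  have hm : m = 1 := by
    have h10 : m - 1 = 0 := Nat.eq_zero_of_dvd_of_lt h9 (by have := hp.out.two_le; omega)
    omega
  rw [hn, hm, pow_one]

/-! ### the parameters of the line -/

variable {W : WeierstrassCurve ℤ}

/-- a point of `E₁` with parameter `0` is the origin -/
theorem eq_zero_of_zc_eq_zero (hΔ : W.Δ ≠ 0) {P : Pts (WQ' W)}
    (hP : InE1 A.valuation (WB W) P) (h : zc (W := WB W) P = 0) : P = 0 := by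
  haveI := isElliptic_WB W hΔ
  rw [← ptOf_zc (integralModel_WB W A) hP, h, ptOf_zero]

/-- `v p ≤ v (z(P))` for a non-zero `p`-torsion point of `E₁` -/
theorem val_p_le_val_zc {P : Pts (WQ' W)} (hP : InE1 A.valuation (WB W) P) (hpP : p • P = 0)
    (hz : zc (W := WB W) P ≠ 0) :
    A.valuation ((p : ℕ) : Qb) ≤ A.valuation (zc (W := WB W) P) := by
  have hlt := val_zc_lt (integralModel_WB W A) hP
  have h1 := (zc_nsmul_estimate (integralModel_WB W A) hP hlt le_rfl p).2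
  rw [hpP, zc_zero, zero_sub, Valuation.map_neg, map_mul, pow_two] at h1
  have hz0 : 0 < A.valuation (zc (W := WB W) P) := zero_lt_iff.2 ((Valuation.ne_zero_iff _).mpr hz)
  exact le_of_mul_le_mul_right h1 hz0

/-- a root of unity action is determined on a primitive root -/
theorem rootAction_of_primitive {ζ : Qb} (hζ : IsPrimitiveRoot ζ p) {g : GQ} {a : ℕ}
    (h : g ζ = ζ ^ a) : ∀ μ : Qb, μ ^ p = 1 → g μ = μ ^ a := by
  intro μ hμ
  obtain ⟨k, -, rfl⟩ := hζ.eq_pow_of_pow_eq_one hμ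
  rw [map_pow, h, ← pow_mul, ← pow_mul, mul_comm]

/-- **the non-zero points of the line have parameters of valuation `v (ζ - 1)`.** -/
theorem val_zc_lineOrd (hΔ : W.Δ ≠ 0) (hgood : ¬ (p : ℤ) ∣ W.Δ) (hA : A.LiesOverPrime p)
    (hL : lineOrd W p A ≠ ⊤) {ζ : Qb} (hζ : IsPrimitiveRoot ζ p) {ℓ : Ep (WQ' W) p}
    (hℓ : ℓ ∈ lineOrd W p A) (hℓ0 : ℓ ≠ 0) :
    A.valuation (zc (W := WB W) (ℓ : Pts (WQ' W))) = A.valuation (ζ - 1) := by
  have hE : InE1 A.valuation (WB W) (ℓ : Pts (WQ' W)) := hℓ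
  have hz0 : zc (W := WB W) (ℓ : Pts (WQ' W)) ≠ 0 := by
    intro h
    apply hℓ0
    exact Subtype.ext (eq_zero_of_zc_eq_zero hΔ hE h)
  have hlt := val_zc_lt (integralModel_WB W A) hE
  have hpℓ : p • (ℓ : Pts (WQ' W)) = 0 := by
    have := congrArg Subtype.val (nsmul_p_eq_zero ℓ)
    simpa using this
  refine val_eq_of_tame hA hζ hz0 (fun σ hσ => ?_) hlt (val_p_le_val_zc hE hpℓ hz0)
    (fun g hg a hga => ?_)
  · rw [← zc_smul]
    have := smul_lineOrd_of_IOne hΔ hgood hA hL hσ ℓ hℓ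
    have := congrArg Subtype.val this
    exact congrArg _ this
  · have h1 := smul_lineOrd_of_rootAction hΔ hgood hA hL hg a (rootAction_of_primitive hζ hga) ℓ hℓ
    have h2 : g • (ℓ : Pts (WQ' W)) = a • (ℓ : Pts (WQ' W)) := by
      calc g • (ℓ : Pts (WQ' W)) = ((g • ℓ : Ep (WQ' W) p) : Pts (WQ' W)) := rfl
        _ = ((a • ℓ : Ep (WQ' W) p) : Pts (WQ' W)) := congrArg Subtype.val h1
        _ = a • (ℓ : Pts (WQ' W)) := by simp
    rw [← zc_smul, h2]
    have h3 := (zc_nsmul_estimate (integralModel_WB W A) hE hlt le_rfl a).2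
    refine lt_of_le_of_lt h3 ?_
    rw [pow_two]
    calc A.valuation (zc (W := WB W) (ℓ : Pts (WQ' W))) * A.valuation (zc (W := WB W) (ℓ : Pts (WQ' W)))
        < 1 * A.valuation (zc (W := WB W) (ℓ : Pts (WQ' W))) :=
          mul_lt_mul_of_pos_right hlt (zero_lt_iff.2 ((Valuation.ne_zero_iff _).mpr hz0))
      _ = _ := one_mul _

end Fermat.Agent.S59lib.Ord
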