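/-
S59lib / Ord / Resolvent  (helper9) — Project I, `LocalOrdAt` for `W` good ordinary at `p`.

**The Kummer generator of `K₁(T)/K₁`.**  `Q` a generator of the line `L = W[p] ∩ E₁` (parameters of
valuation `v (ζ - 1)`, inertia acting through the cyclotomic character), `T ∈ E₁` a point with
`g T - T ∈ ⟨Q⟩` for all `g ∈ I_A`, `T ∉ ⟨Q⟩`.  With `u_i = z(T + i Q)` (`i ∈ ℤ/p`), the Lagrange
resolvent `w₀ = ∑_i ζ^{-i} / u_i` satisfies `g w₀ = ζ^c w₀` when `g T = T + c Q`, and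
`v (w₀) ∈ v(p)^ℤ`: `w₀ ∏ u_i = ∑_i ζ^{-i} ∏_{j ≠ i} u_j =: Num` has valuation exactly `v p`
(`Num = ∑_i ζ^{-i} Φ(τ, λ_i)`, `Φ` analytic over `A ∩ Fix I₁`; the trace sums
`S_b = ∑_i ζ^{-i} λ_i^b` are inertia-fixed non-units, hence divisible by `p`; and
`Φ(0, λ_i) = δ_{i0} ∏_{k ≠ 0} λ_k`), while `∏ u_i` is inertia-fixed.
-/
import Fermat.Agent.S59lib.Ord.An1
import Fermat.Agent.S59lib.Ord.Cyclo
import Fermat.Agent.S19lib.F.RankOne

set_option autoImplicit false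
set_option linter.unusedSectionVars false
set_option linter.style.haveILetI false

noncomputable section

namespace Fermat.Agent.S59lib.Ord

open Fermat.Agent.S19lib Fermat.Agent.S19lib.An Fermat.Agent.S58lib.Tate Fermat.Agent.S05lib
open Fermat.Agent.S59lib.Flat Fermat.Agent.S44lib Fermat.Agent.S44lib.F WeierstrassCurve

local notation "Qb" => AlgebraicClosure ℚ
local notation "GQ" => (AlgebraicClosure ℚ ≃ₐ[ℚ] AlgebraicClosure ℚ)

variable {W : WeierstrassCurve ℤ} {p : ℕ} [hp : Fact p.Prime] {A : ValuationSubring Qb}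

/-! ### multiples of a `p`-torsion point, indexed by `ZMod p` -/

/-- `i ↦ i • Q` on `ZMod p` -/
def mulHom (Q : Pts (WQ' W)) (hQ : p • Q = 0) : ZMod p →+ Pts (WQ' W) :=
  ZMod.lift p ⟨zmultiplesHom (Pts (WQ' W)) Q, by
    show ((p : ℕ) : ℤ) • Q = 0
    rw [natCast_zsmul]; exact hQ⟩

theorem mulHom_natCast (Q : Pts (WQ' W)) (hQ : p • Q = 0) (k : ℕ) :
    mulHom Q hQ (k : ZMod p) = k • Q := by
  have h := ZMod.lift_coe p (⟨zmultiplesHom (Pts (WQ' W)) Q, by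
    show ((p : ℕ) : ℤ) • Q = 0
    rw [natCast_zsmul]; exact hQ⟩ : {f : ℤ →+ Pts (WQ' W) // f p = 0}) (k : ℤ)
  rw [Int.cast_natCast] at h
  rw [mulHom, h]
  show ((k : ℕ) : ℤ) • Q = k • Q
  rw [natCast_zsmul]

theorem mulHom_apply (Q : Pts (WQ' W)) (hQ : p • Q = 0) (i : ZMod p) :
    mulHom Q hQ i = i.val • Q := by
  haveI : NeZero p := ⟨hp.out.ne_zero⟩
  conv_lhs => rw [← ZMod.natCast_zmod_val i]
  exact mulHom_natCast Q hQ _

/-! ### a trace estimate for polynomials -/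

/-- `∑_i χ_i (P(τ, λ_i) - P(0, λ_i))` is small when the sums `∑_i χ_i λ_i^b` are. -/
theorem val_sum_eval_sub_le {ι : Type*} [Fintype ι] (P : MvPolynomial (Fin 2) Qb)
    (hP : ∀ m, A.valuation (P.coeff m) ≤ 1) (τ : Qb) (hτ : A.valuation τ ≤ 1) (χ lam : ι → Qb)
    (B : A.ValueGroup) (hS : ∀ b : ℕ, A.valuation (∑ i, χ i * lam i ^ b) ≤ B) :
    A.valuation (∑ i, χ i * (MvPolynomial.eval ![τ, lam i] P - MvPolynomial.eval ![0, lam i] P)) ≤
      A.valuation τ * B := by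
  have key : ∀ i, MvPolynomial.eval ![τ, lam i] P - MvPolynomial.eval ![0, lam i] P =
      ∑ d ∈ P.support, P.coeff d * (τ ^ d 0 - 0 ^ d 0) * lam i ^ d 1 := by
    intro i
    rw [MvPolynomial.eval_eq', MvPolynomial.eval_eq', ← Finset.sum_sub_distrib]
    refine Finset.sum_congr rfl (fun d _ => ?_)
    rw [Fin.prod_univ_two, Fin.prod_univ_two]
    simp only [Matrix.cons_val_zero, Matrix.cons_val_one]
    ring
  have e : ∑ i, χ i * (MvPolynomial.eval ![τ, lam i] P - MvPolynomial.eval ![0, lam i] P) =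
      ∑ d ∈ P.support, P.coeff d * (τ ^ d 0 - 0 ^ d 0) * ∑ i, χ i * lam i ^ d 1 := by
    simp_rw [key, Finset.mul_sum]
    rw [Finset.sum_comm]
    refine Finset.sum_congr rfl (fun d _ => ?_)
    refine Finset.sum_congr rfl (fun i _ => ?_)
    ring
  rw [e]
  refine Valuation.map_sum_le _ (fun d _ => ?_)
  rw [map_mul, map_mul]
  have h1 : A.valuation (τ ^ d 0 - 0 ^ d 0) ≤ A.valuation τ := by
    rcases Nat.eq_zero_or_pos (d 0) with h | h
    · rw [h, pow_zero, pow_zero, sub_self, map_zero]; exact zero_le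
    · rw [zero_pow h.ne', sub_zero, map_pow]
      calc A.valuation τ ^ d 0 ≤ A.valuation τ ^ 1 := pow_le_pow_of_le_one zero_le hτ h
        _ = A.valuation τ := pow_one _
  calc A.valuation (P.coeff d) * A.valuation (τ ^ d 0 - 0 ^ d 0) *
        A.valuation (∑ i, χ i * lam i ^ d 1) ≤ 1 * A.valuation τ * B :=
        mul_le_mul' (mul_le_mul' (hP d) h1) (hS _)
    _ = A.valuation τ * B := by rw [one_mul]

/-! ### the data -/

/-- the hypotheses of the Kummer computation -/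
structure KData (W : WeierstrassCurve ℤ) (p : ℕ) (A : ValuationSubring Qb) (ζ : Qb)
    (Q T : Pts (WQ' W)) : Prop where
  hζ : IsPrimitiveRoot ζ p
  hQ1 : InE1 A.valuation (WB W) Q
  hQp : p • Q = 0
  hQval : ∀ k : ℕ, ¬ p ∣ k → A.valuation (zc (W := WB W) (k • Q)) = A.valuation (ζ - 1)
  hQact : ∀ g ∈ IA A, ∀ a : ℕ, g ζ = ζ ^ a → g • Q = a • Q
  hT1 : InE1 A.valuation (WB W) T
  hTact : ∀ g ∈ IA A, ∃ c : ℕ, g • T = T + c • Q
  hTne : ∀ k : ℕ, T + k • Q ≠ 0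

variable {ζ : Qb} {Q T : Pts (WQ' W)}

namespace KData

variable (D : KData W p A ζ Q T)

/-- `i ↦ i Q` -/
def φ : ZMod p →+ Pts (WQ' W) := mulHom Q D.hQp

/-- the additive character `i ↦ ζ^i` -/
def ψ : AddChar (ZMod p) Qb :=
  haveI : NeZero p := ⟨hp.out.ne_zero⟩
  AddChar.zmodChar p D.hζ.pow_eq_one

/-- `λ_i = z(i Q)` -/
def lamK (i : ZMod p) : Qb := zc (W := WB W) (D.φ i)

/-- `u_i = z(T + i Q)` -/
def uK (i : ZMod p) : Qb := zc (W := WB W) (T + D.φ i)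

theorem φ_natCast (k : ℕ) : D.φ (k : ZMod p) = k • Q := mulHom_natCast Q D.hQp k

theorem φ_apply (i : ZMod p) : D.φ i = i.val • Q := mulHom_apply Q D.hQp i

theorem ψ_apply (i : ZMod p) : D.ψ i = ζ ^ i.val := by
  haveI : NeZero p := ⟨hp.out.ne_zero⟩
  exact AddChar.zmodChar_apply _ _

theorem ψ_natCast (k : ℕ) : D.ψ (k : ZMod p) = ζ ^ k := by
  rw [ψ_apply, ZMod.val_natCast, ← pow_eq_pow_mod _ D.hζ.pow_eq_one]

theorem inE1_φ (i : ZMod p) : InE1 A.valuation (WB W) (D.φ i) := by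
  rw [φ_apply]
  exact (zc_nsmul_estimate (integralModel_WB W A) D.hQ1
    (val_zc_lt (integralModel_WB W A) D.hQ1) le_rfl _).1

theorem inE1_T_add (i : ZMod p) : InE1 A.valuation (WB W) (T + D.φ i) :=
  InE1.add (integralModel_WB W A) D.hT1 (D.inE1_φ i)

theorem val_lamK_lt (i : ZMod p) : A.valuation (D.lamK i) < 1 :=
  val_zc_lt (integralModel_WB W A) (D.inE1_φ i)

theorem val_uK_lt (i : ZMod p) : A.valuation (D.uK i) < 1 :=
  val_zc_lt (integralModel_WB W A) (D.inE1_T_add i)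

theorem lamK_zero : D.lamK 0 = 0 := by
  unfold lamK
  rw [map_zero, zc_zero]

theorem val_lamK {i : ZMod p} (hi : i ≠ 0) : A.valuation (D.lamK i) = A.valuation (ζ - 1) := by
  haveI : NeZero p := ⟨hp.out.ne_zero⟩
  unfold lamK
  rw [φ_apply]
  apply D.hQval
  intro h
  apply hi
  rw [← ZMod.natCast_zmod_val i]
  exact (ZMod.natCast_eq_zero_iff _ _).mpr h

theorem uK_ne_zero (hΔ : W.Δ ≠ 0) (i : ZMod p) : D.uK i ≠ 0 := by
  intro h
  have := eq_zero_of_zc_eq_zero hΔ (D.inE1_T_add i) h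
  rw [φ_apply] at this
  exact D.hTne _ this

theorem val_ψ (i : ZMod p) : A.valuation (D.ψ i) = 1 := by
  rw [ψ_apply, map_pow,
    Fermat.Agent.S44lib.Q3.val_root_of_unity (v := A.valuation) hp.out.ne_zero D.hζ.pow_eq_one,
    one_pow]

/-! ### the Galois action -/

include D in
/-- the exponent of an automorphism on `μ_p` -/
theorem exists_exponent (g : GQ) : ∃ a : ℕ, g ζ = ζ ^ a ∧ (a : ZMod p) ≠ 0 := by
  have h1 : (g ζ) ^ p = 1 := by rw [← map_pow, D.hζ.pow_eq_one, map_one]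
  obtain ⟨a, -, ha⟩ := D.hζ.eq_pow_of_pow_eq_one h1
  refine ⟨a, ha.symm, fun h0 => ?_⟩
  have hdvd : p ∣ a := (ZMod.natCast_eq_zero_iff _ _).mp h0
  have : g ζ = g 1 := by
    rw [map_one, ← ha]
    exact (D.hζ.pow_eq_one_iff_dvd a).mpr hdvd
  exact D.hζ.ne_one hp.out.one_lt (g.injective this)

variable {g : GQ} (hg : g ∈ IA A) {a : ℕ} (ha : g ζ = ζ ^ a)
include hg ha

theorem smul_φ (i : ZMod p) : g • D.φ i = D.φ ((a : ZMod p) * i) := by
  haveI : NeZero p := ⟨hp.out.ne_zero⟩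
  rw [φ_apply, (smul_comm i.val g Q).symm, D.hQact g hg a ha, ← mul_nsmul]
  conv_rhs => rw [← ZMod.natCast_zmod_val i, ← Nat.cast_mul, φ_natCast]

theorem map_lamK (i : ZMod p) : g (D.lamK i) = D.lamK ((a : ZMod p) * i) := by
  unfold lamK
  rw [← zc_smul, D.smul_φ hg ha]

theorem map_ψ (j : ZMod p) : g (D.ψ j) = D.ψ ((a : ZMod p) * j) := by
  rw [ψ_apply, map_pow, ha, ← pow_mul, mul_comm, pow_mul, ← ψ_apply, ← AddChar.map_nsmul_eq_pow,
    nsmul_eq_mul]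

theorem map_uK {c : ℕ} (hc : g • T = T + c • Q) (i : ZMod p) :
    g (D.uK i) = D.uK ((c : ZMod p) + (a : ZMod p) * i) := by
  unfold uK
  have e : g • (T + D.φ i) = g • T + g • D.φ i := smul_add g T (D.φ i)
  rw [← zc_smul, e, D.smul_φ hg ha, hc, map_add, φ_natCast, add_assoc]

/-! ### the trace sums -/

omit hg ha in
/-- `S_b = ∑_i ζ^{-i} λ_i^b` -/
def SK (b : ℕ) : Qb := ∑ i : ZMod p, D.ψ (-i) * D.lamK i ^ b

omit hg ha in
theorem SK_fixed (b : ℕ) {g : GQ} (hg : g ∈ IA A) : g (D.SK b) = D.SK b := by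
  obtain ⟨a, ha, ha0⟩ := D.exists_exponent g
  unfold SK
  rw [map_sum]
  have h : ∀ i : ZMod p, g (D.ψ (-i) * D.lamK i ^ b) =
      (fun j => D.ψ (-j) * D.lamK j ^ b) (Equiv.mulLeft₀ (a : ZMod p) ha0 i) := by
    intro i
    rw [map_mul, map_pow, D.map_ψ hg ha, D.map_lamK hg ha, mul_neg]
    rfl
  rw [Finset.sum_congr rfl (fun i _ => h i)]
  exact Equiv.sum_comp (Equiv.mulLeft₀ (a : ZMod p) ha0) (fun j => D.ψ (-j) * D.lamK j ^ b)

omit hg ha in
theorem SK_zero : D.SK 0 = 0 := by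
  haveI : Fact (1 < p) := ⟨hp.out.one_lt⟩
  unfold SK
  simp only [pow_zero, mul_one]
  rw [← Equiv.sum_comp (Equiv.neg (ZMod p)) (fun i => D.ψ (-i))]
  simp only [Equiv.neg_apply, neg_neg]
  apply AddChar.sum_eq_zero_of_ne_one
  intro h
  have h1 : D.ψ 1 = 1 := by rw [h]; rfl
  rw [ψ_apply, ZMod.val_one, pow_one] at h1
  exact D.hζ.ne_one hp.out.one_lt h1

omit hg ha in
theorem val_SK_le (hA : A.LiesOverPrime p) (b : ℕ) :
    A.valuation (D.SK b) ≤ A.valuation ((p : ℕ) : Qb) := by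
  rcases Nat.eq_zero_or_pos b with rfl | hb
  · rw [SK_zero, map_zero]; exact zero_le
  · have hlt : A.valuation (D.SK b) < 1 := by
      unfold SK
      refine Valuation.map_sum_lt _ one_ne_zero (fun i _ => ?_)
      rw [map_mul, val_ψ, one_mul, map_pow]
      exact pow_lt_one₀ zero_le (D.val_lamK_lt i) hb.ne'
    have hmem : D.SK b ∈ A0 A := mem_A0_of_fixed hlt.le (fun σ hσ => D.SK_fixed b hσ)
    exact Fermat.Agent.S19lib.D.valuation_le_of_mem_A0 hp.out A hA hmem hlt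

/-! ### the norm and the resolvent -/

omit hg ha in
/-- `N = ∏ u_i` -/
def NK : Qb := ∏ i : ZMod p, D.uK i

omit hg ha in
/-- `Num = ∑_i ζ^{-i} ∏_{j ≠ i} u_j` -/
def NumK : Qb := ∑ i : ZMod p, D.ψ (-i) * ∏ j ∈ Finset.univ.erase i, D.uK j

omit hg ha in
/-- the Lagrange resolvent `w₀ = ∑_i ζ^{-i} / u_i` -/
def wK : Qb := ∑ i : ZMod p, D.ψ (-i) * (D.uK i)⁻¹

omit hg ha in
theorem NK_fixed {g : GQ} (hg : g ∈ IA A) : g D.NK = D.NK := by
  obtain ⟨a, ha, ha0⟩ := D.exists_exponent g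
  obtain ⟨c, hc⟩ := D.hTact g hg
  unfold NK
  rw [map_prod]
  have h : ∀ i : ZMod p, g (D.uK i) =
      D.uK (((Equiv.mulLeft₀ (a : ZMod p) ha0).trans (Equiv.addLeft (c : ZMod p))) i) := by
    intro i
    rw [D.map_uK hg ha hc]
    rfl
  rw [Finset.prod_congr rfl (fun i _ => h i)]
  exact Equiv.prod_comp ((Equiv.mulLeft₀ (a : ZMod p) ha0).trans (Equiv.addLeft (c : ZMod p))) D.uK

omit hg ha in
theorem NK_ne_zero (hΔ : W.Δ ≠ 0) : D.NK ≠ 0 := by
  unfold NK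
  rw [Finset.prod_ne_zero_iff]
  exact fun i _ => D.uK_ne_zero hΔ i

omit hg ha in
theorem wK_mul_NK (hΔ : W.Δ ≠ 0) : D.wK * D.NK = D.NumK := by
  unfold wK NK NumK
  rw [Finset.sum_mul]
  refine Finset.sum_congr rfl (fun i _ => ?_)
  rw [← Finset.mul_prod_erase Finset.univ D.uK (Finset.mem_univ i), mul_assoc,
    ← mul_assoc _ (D.uK i), inv_mul_cancel₀ (D.uK_ne_zero hΔ i), one_mul]

omit ha in
theorem map_wK {c : ℕ} (hc : g • T = T + c • Q) : g D.wK = ζ ^ c * D.wK := by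
  obtain ⟨a, ha, ha0⟩ := D.exists_exponent g
  unfold wK
  rw [map_sum, Finset.mul_sum]
  have h : ∀ i : ZMod p, g (D.ψ (-i) * (D.uK i)⁻¹) =
      (fun j => ζ ^ c * (D.ψ (-j) * (D.uK j)⁻¹))
        (((Equiv.mulLeft₀ (a : ZMod p) ha0).trans (Equiv.addLeft (c : ZMod p))) i) := by
    intro i
    rw [map_mul, map_inv₀, D.map_ψ hg ha, D.map_uK hg ha hc]
    show D.ψ ((a : ZMod p) * -i) * (D.uK ((c : ZMod p) + (a : ZMod p) * i))⁻¹ =
      ζ ^ c * (D.ψ (-((c : ZMod p) + (a : ZMod p) * i)) *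
        (D.uK ((c : ZMod p) + (a : ZMod p) * i))⁻¹)
    rw [← mul_assoc, ← D.ψ_natCast c, ← AddChar.map_add_eq_mul]
    congr 2
    ring
  rw [Finset.sum_congr rfl (fun i _ => h i)]
  exact Equiv.sum_comp ((Equiv.mulLeft₀ (a : ZMod p) ha0).trans (Equiv.addLeft (c : ZMod p)))
    (fun j => ζ ^ c * (D.ψ (-j) * (D.uK j)⁻¹))

/-! ### the function `Φ` at the points -/

omit hg ha in
theorem val_lamK_le (i : ZMod p) : A.valuation (D.lamK i) ≤ A.valuation (ζ - 1) := by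
  by_cases hi : i = 0
  · rw [hi, lamK_zero, map_zero]; exact zero_le
  · exact (D.val_lamK hi).le

omit hg ha in
theorem lamK_mem_A1 (i : ZMod p) : D.lamK i ∈ A1 A p := by
  refine ⟨(A.valuation_le_one_iff _).mp (D.val_lamK_lt i).le, fun σ hσ => ?_⟩
  have h1 : σ ζ = ζ ^ 1 := by rw [pow_one]; exact hσ.2 ζ D.hζ.pow_eq_one
  rw [D.map_lamK hσ.1 h1, Nat.cast_one, one_mul]

/-- the index set `k ≠ 0` -/
def sK (p : ℕ) [Fact p.Prime] : Finset (ZMod p) := Finset.univ.erase 0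

omit hg ha in
theorem card_sK : (sK p).card = p - 1 := by
  haveI : NeZero p := ⟨hp.out.ne_zero⟩
  rw [sK, Finset.card_erase_of_mem (Finset.mem_univ _), Finset.card_univ, ZMod.card]

omit hg ha in
theorem PhiW_zc (hΔ : W.Δ ≠ 0) (h2 : A.valuation (2 : Qb) = 1) {P P' : Pts (WQ' W)}
    (hP : InE1 A.valuation (WB W) P) (hP' : InE1 A.valuation (WB W) P') :
    PhiW W A (sK p) D.lamK ![zc (W := WB W) P, zc (W := WB W) P'] =
      ∏ k ∈ sK p, zc (W := WB W) (P + P' + D.φ k) := by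
  unfold PhiW
  refine Finset.prod_congr rfl (fun k _ => ?_)
  show FzW W A (FzW W A (zc (W := WB W) P) (zc (W := WB W) P')) (D.lamK k) = _
  rw [FzW_zc hΔ h2 hP hP']
  unfold lamK
  rw [FzW_zc hΔ h2 (InE1.add (integralModel_WB W A) hP hP') (D.inE1_φ k)]

omit hg ha in
theorem prod_shift (f : ZMod p → Qb) (i : ZMod p) :
    ∏ k ∈ sK p, f (i + k) = ∏ j ∈ Finset.univ.erase i, f j := by
  refine Finset.prod_equiv (Equiv.addLeft i) (fun k => ?_) (fun k _ => rfl)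
  simp [sK]

omit hg ha in
theorem prod_erase_uK (hΔ : W.Δ ≠ 0) (h2 : A.valuation (2 : Qb) = 1) (i : ZMod p) :
    ∏ j ∈ Finset.univ.erase i, D.uK j =
      PhiW W A (sK p) D.lamK ![zc (W := WB W) T, D.lamK i] := by
  have h := D.PhiW_zc hΔ h2 D.hT1 (D.inE1_φ i)
  rw [show D.lamK i = zc (W := WB W) (D.φ i) from rfl, h, ← prod_shift]
  refine Finset.prod_congr rfl (fun k _ => ?_)
  unfold uK
  rw [map_add, add_assoc]

omit hg ha in
theorem PhiW_zero_lamK (hΔ : W.Δ ≠ 0) (h2 : A.valuation (2 : Qb) = 1) (i : ZMod p) :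
    PhiW W A (sK p) D.lamK ![0, D.lamK i] = ∏ j ∈ Finset.univ.erase i, D.lamK j := by
  have h := D.PhiW_zc hΔ h2 (P := 0) (P' := D.φ i) inE1_zero (D.inE1_φ i)
  rw [zc_zero] at h
  rw [show D.lamK i = zc (W := WB W) (D.φ i) from rfl, h, ← prod_shift]
  refine Finset.prod_congr rfl (fun k _ => ?_)
  unfold lamK
  rw [zero_add, map_add]

omit hg ha in
/-- `∑_i ζ^{-i} Φ(0, λ_i) = Λ = ∏_{k ≠ 0} λ_k` -/
theorem sum_PhiW_zero (hΔ : W.Δ ≠ 0) (h2 : A.valuation (2 : Qb) = 1) :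
    ∑ i : ZMod p, D.ψ (-i) * PhiW W A (sK p) D.lamK ![0, D.lamK i] = ∏ k ∈ sK p, D.lamK k := by
  rw [Finset.sum_eq_single (0 : ZMod p)]
  · rw [neg_zero, AddChar.map_zero_eq_one, one_mul, D.PhiW_zero_lamK hΔ h2]
    rfl
  · intro i _ hi
    rw [D.PhiW_zero_lamK hΔ h2, Finset.prod_eq_zero (i := (0 : ZMod p))
      (Finset.mem_erase.mpr ⟨fun h => hi h.symm, Finset.mem_univ _⟩) D.lamK_zero, mul_zero]
  · intro h
    exact absurd (Finset.mem_univ _) h

omit hg ha in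
theorem val_prod_lamK :
    A.valuation (∏ k ∈ sK p, D.lamK k) = A.valuation ((p : ℕ) : Qb) := by
  have h1 : ∀ k ∈ sK p, A.valuation (D.lamK k) = A.valuation (ζ - 1) := fun k hk =>
    D.val_lamK (Finset.ne_of_mem_erase hk)
  rw [map_prod, Finset.prod_congr rfl h1, Finset.prod_const, card_sK,
    val_zeta_sub_one_pow A.valuation hp.out D.hζ]

/-! ### the valuation of the numerator -/

omit hg ha in
/-- **`v (Num) = v p`.** -/
theorem val_NumK (hΔ : W.Δ ≠ 0) (hA : A.LiesOverPrime p) (hp2 : p ≠ 2) :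
    A.valuation D.NumK = A.valuation ((p : ℕ) : Qb) := by
  have h2 := val_two_eq_one A hA hp2
  have hpv1 := val_p_lt_one hA
  have hpv0 := val_p_ne_zero (A := A) hp.out
  have hℓ1 := val_zeta_sub_one_lt_one A.valuation hp.out D.hζ hpv1
  set τ : Qb := zc (W := WB W) T with hτ
  have hτ1 : A.valuation τ < 1 := val_zc_lt (integralModel_WB W A) D.hT1
  -- the radius and the order of approximation
  obtain ⟨c, hcπ, hcτ, M, hM⟩ : ∃ c : A.ValueGroup, A.valuation (ζ - 1) ≤ c ∧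
      A.valuation τ ≤ c ∧ ∃ M : ℕ, c ^ M < A.valuation ((p : ℕ) : Qb) := by
    have hp2' : A.valuation (((p : ℕ) : Qb) ^ 2) < A.valuation ((p : ℕ) : Qb) := by
      rw [map_pow, pow_two]
      calc A.valuation ((p : ℕ) : Qb) * A.valuation ((p : ℕ) : Qb)
          < 1 * A.valuation ((p : ℕ) : Qb) := mul_lt_mul_of_pos_right hpv1 (zero_lt_iff.2 hpv0)
        _ = _ := one_mul _
    have hd : (((p : ℕ) : Qb) ^ 2) ≠ 0 := pow_ne_zero 2 ((Valuation.ne_zero_iff _).mp hpv0)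
    rcases le_total (A.valuation τ) (A.valuation (ζ - 1)) with h | h
    · obtain ⟨M, hM⟩ := Fermat.Agent.S19lib.F.exists_pow_le A hp.out hA (a := ζ - 1)
        ((A.mem_nonunits_iff).mpr hℓ1) hd
      exact ⟨_, le_rfl, h, M, lt_of_le_of_lt hM hp2'⟩
    · obtain ⟨M, hM⟩ := Fermat.Agent.S19lib.F.exists_pow_le A hp.out hA (a := τ)
        ((A.mem_nonunits_iff).mpr hτ1) hd
      exact ⟨_, h, le_rfl, M, lt_of_le_of_lt hM hp2'⟩
  -- the approximant
  have C := coef_A1 hA D.hζ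
  have hΦ := an_PhiW C (coefIn_WB_A1 A p W) hΔ h2 (sK p) D.lamK
    (fun k _ => ⟨D.lamK_mem_A1 k, D.val_lamK_lt k⟩)
  obtain ⟨P, hP, hPf⟩ := exists_approx_int C.hR hΦ M
  have hE1 : ∀ i : ZMod p, A.valuation (PhiW W A (sK p) D.lamK ![τ, D.lamK i] -
      MvPolynomial.eval ![τ, D.lamK i] P) ≤ c ^ M := fun i =>
    hPf _ (by
      intro j
      fin_cases j
      · exact hτ1
      · exact D.val_lamK_lt i) c hcπ (by
      intro j
      fin_cases j
      · exact hcτ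
      · exact le_trans (D.val_lamK_le i) hcπ)
  have hE3 : ∀ i : ZMod p, A.valuation (PhiW W A (sK p) D.lamK ![0, D.lamK i] -
      MvPolynomial.eval ![0, D.lamK i] P) ≤ c ^ M := fun i =>
    hPf _ (by
      intro j
      fin_cases j
      · show A.valuation (0 : Qb) < 1
        rw [map_zero]; exact zero_lt_one
      · exact D.val_lamK_lt i) c hcπ (by
      intro j
      fin_cases j
      · show A.valuation (0 : Qb) ≤ c
        rw [map_zero]; exact zero_le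
      · exact le_trans (D.val_lamK_le i) hcπ)
  have hE2 := val_sum_eval_sub_le P hP τ hτ1.le (fun i : ZMod p => D.ψ (-i)) D.lamK
    (A.valuation ((p : ℕ) : Qb)) (fun b => D.val_SK_le hA b)
  -- the decomposition
  have hdec : D.NumK - ∏ k ∈ sK p, D.lamK k =
      ∑ i : ZMod p, D.ψ (-i) * (PhiW W A (sK p) D.lamK ![τ, D.lamK i] -
        MvPolynomial.eval ![τ, D.lamK i] P) +
      ∑ i : ZMod p, D.ψ (-i) * (MvPolynomial.eval ![τ, D.lamK i] P -
        MvPolynomial.eval ![0, D.lamK i] P) +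
      ∑ i : ZMod p, D.ψ (-i) * (MvPolynomial.eval ![0, D.lamK i] P -
        PhiW W A (sK p) D.lamK ![0, D.lamK i]) := by
    rw [← D.sum_PhiW_zero hΔ h2, NumK]
    simp_rw [D.prod_erase_uK hΔ h2]
    rw [← Finset.sum_add_distrib, ← Finset.sum_add_distrib, ← Finset.sum_sub_distrib]
    refine Finset.sum_congr rfl (fun i _ => ?_)
    ring
  have hlt : A.valuation (D.NumK - ∏ k ∈ sK p, D.lamK k) < A.valuation ((p : ℕ) : Qb) := by
    rw [hdec]
    refine lt_of_le_of_lt (Valuation.map_add _ _ _) (max_lt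
      (lt_of_le_of_lt (Valuation.map_add _ _ _) (max_lt ?_ ?_)) ?_)
    · refine lt_of_le_of_lt (Valuation.map_sum_le _ (fun i _ => ?_)) hM
      rw [map_mul, val_ψ, one_mul]
      exact hE1 i
    · refine lt_of_le_of_lt hE2 ?_
      calc A.valuation τ * A.valuation ((p : ℕ) : Qb) < 1 * A.valuation ((p : ℕ) : Qb) :=
            mul_lt_mul_of_pos_right hτ1 (zero_lt_iff.2 hpv0)
        _ = _ := one_mul _
    · refine lt_of_le_of_lt (Valuation.map_sum_le _ (fun i _ => ?_)) hM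
      rw [map_mul, val_ψ, one_mul, ← Valuation.map_neg, neg_sub]
      exact hE3 i
  have e : D.NumK = ∏ k ∈ sK p, D.lamK k + (D.NumK - ∏ k ∈ sK p, D.lamK k) := by ring
  rw [e, Valuation.map_add_eq_of_lt_left _ (by rw [D.val_prod_lamK]; exact hlt), D.val_prod_lamK]

omit hg ha in
/-- **the Kummer generator**: non-zero, of valuation in `v(p)^ℤ`. -/
theorem wK_spec (hΔ : W.Δ ≠ 0) (hA : A.LiesOverPrime p) (hp2 : p ≠ 2) :
    D.wK ≠ 0 ∧ ∃ m : ℤ, A.valuation D.wK = A.valuation ((p : ℕ) : Qb) ^ m := by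
  have hpv0 := val_p_ne_zero (A := A) hp.out
  have h1 := D.val_NumK hΔ hA hp2
  rw [← D.wK_mul_NK hΔ, map_mul] at h1
  obtain ⟨n, hn⟩ := val_of_IA_fixed hp.out hA (D.NK_ne_zero hΔ) (fun σ hσ => D.NK_fixed hσ)
  have hw0 : D.wK ≠ 0 := by
    intro h0
    rw [h0, map_zero, zero_mul] at h1
    exact hpv0 h1.symm
  refine ⟨hw0, 1 - n, ?_⟩
  rw [hn] at h1
  rw [zpow_sub₀ hpv0, zpow_one]
  exact eq_div_of_mul_eq (zpow_ne_zero n hpv0) h1

end KData

end Fermat.Agent.S59lib.Ord
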