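/-
S59lib / Ord / Main  (helper9) — Project I.

**`LocalOrdAt` for `W` good ordinary at `p`** (`Q3WOrdStmt`, the analogue for an integral model `W`
with good ordinary reduction at the odd prime `p` of `S44lib.Q3Stmt`): at a place `A` of `ℚ̄` over `p`,
* every `x ∈ W[p]` is rational over `K₁(w)` for a `p`-th root `w` of a unit of `A0 A` (peu ramifié);
* `L = W[p] ∩ E₁` is a proper `I_A`-stable subgroup, `I_A` acts trivially on `W[p]/L`, and
  `I₁ = I_A ∩ Fix(μ_p)` fixes `L` pointwise.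
"Ordinary" is the hypothesis that some point of `W[p]` is not in the kernel of reduction.
-/
import Fermat.Agent.S59lib.Ord.Resolvent

set_option autoImplicit false
set_option linter.unusedSectionVars false
set_option linter.style.haveILetI false

noncomputable section

namespace Fermat.Agent.S59lib.Ord

open Fermat.Agent.S19lib Fermat.Agent.S58lib.Tate Fermat.Agent.S05lib
open Fermat.Agent.S59lib.Flat Fermat.Agent.S44lib Fermat.Agent.S44lib.F WeierstrassCurve

local notation "Qb" => AlgebraicClosure ℚ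
local notation "GQ" => (AlgebraicClosure ℚ ≃ₐ[ℚ] AlgebraicClosure ℚ)

/-- **Q3 for an integral model with good ordinary reduction at `p`** (same shape as
`S44lib.Q3Stmt`). -/
def Q3WOrdStmt : Prop :=
  ∀ (p : ℕ) [Fact p.Prime], p ≠ 2 → ∀ W : WeierstrassCurve ℤ, ¬ (p : ℤ) ∣ W.Δ →
    ∀ A : ValuationSubring Qb, A.LiesOverPrime p →
      (∃ x : Ep (WQ' W) p, ¬ InE1 A.valuation (WB W) (x : Pts (WQ' W))) →
      (∀ x : Ep (WQ' W) p, ∃ w : Qb, IsUnitRoot A p w ∧ FixedOver A p w x) ∧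
      ∃ L : AddSubgroup (Ep (WQ' W) p), L ≠ ⊤ ∧ (∀ σ ∈ IA A, ∀ x ∈ L, σ • x ∈ L) ∧
        (∀ σ ∈ IA A, ∀ x : Ep (WQ' W) p, σ • x - x ∈ L) ∧
        (∀ σ ∈ IOne A p, ∀ x ∈ L, σ • x = x)

variable {W : WeierstrassCurve ℤ} {p : ℕ} [hp : Fact p.Prime] {A : ValuationSubring Qb}

/-- a multiple `k ℓ₀`, `p ∤ k`, of a non-zero `p`-torsion point is non-zero -/
theorem nsmul_ne_zero_of_not_dvd {ℓ₀ : Ep (WQ' W) p} (h0 : ℓ₀ ≠ 0) {k : ℕ} (hk : ¬ p ∣ k) :
    k • ℓ₀ ≠ 0 := by
  intro h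
  apply h0
  have hcop : Nat.Coprime k p := (Nat.Coprime.symm ((Nat.Prime.coprime_iff_not_dvd hp.out).2 hk))
  obtain ⟨k', -, hk'⟩ := Nat.exists_mul_mod_eq_one_of_coprime hcop hp.out.one_lt
  have e : ((k * k' : ℕ) : ZMod p) = ((1 : ℕ) : ZMod p) := by
    rw [ZMod.natCast_eq_natCast_iff', hk', Nat.mod_eq_of_lt hp.out.one_lt]
  have h1 := nsmul_eq_of_modEq ℓ₀ e
  rw [one_smul, mul_nsmul, h, smul_zero] at h1
  exact h1.symm

theorem coe_nsmul_Ep (k : ℕ) (x : Ep (WQ' W) p) :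
    ((k • x : Ep (WQ' W) p) : Pts (WQ' W)) = k • (x : Pts (WQ' W)) := by
  simp

/-- **`Q3WOrdStmt` holds.** -/
theorem q3WOrdStmt : Q3WOrdStmt := by
  intro p _ hp2 W hgood A hA hord
  have hΔ : W.Δ ≠ 0 := fun h => hgood (by rw [h]; exact dvd_zero _)
  have hL : lineOrd W p A ≠ ⊤ := by
    obtain ⟨x, hx⟩ := hord
    intro h
    apply hx
    have : x ∈ lineOrd W p A := by rw [h]; trivial
    exact this
  refine ⟨?_, lineOrd W p A, hL, fun σ hσ x hx => lineOrd_smul_mem hσ hx,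
    fun σ hσ x => smul_sub_mem_lineOrd hgood hA hσ x,
    fun σ hσ x hx => smul_lineOrd_of_IOne hΔ hgood hA hL hσ x hx⟩
  intro x
  haveI : NeZero p := ⟨(Fact.out : p.Prime).ne_zero⟩
  obtain ⟨ζ, hζ⟩ := HasEnoughRootsOfUnity.exists_primitiveRoot Qb p
  obtain ⟨ℓ₀, hℓ₀, hgen⟩ := exists_gen_lineOrd hΔ hL
  obtain ⟨y, hy, hxy⟩ := exists_unramified_centre W p hgood A hA (x : Pts (WQ' W))
  set T : Pts (WQ' W) := (x : Pts (WQ' W)) - y with hT
  have hxT : (x : Pts (WQ' W)) = T + y := by rw [hT]; abel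
  -- the trivial witness
  have triv : (∀ σ ∈ IOne A p, σ • x = x) → ∃ w : Qb, IsUnitRoot A p w ∧ FixedOver A p w x :=
    fun h => ⟨1, ⟨by rw [one_pow]; exact (A0 A).one_mem, by rw [one_pow, map_one]⟩,
      fun σ hσ _ => h σ hσ⟩
  have fix_of_T : ∀ σ ∈ IOne A p, σ • T = T → σ • x = x := by
    intro σ hσ h
    apply Subtype.ext
    show σ • (x : Pts (WQ' W)) = x
    have e : σ • (T + y) = σ • T + σ • y := smul_add σ T y
    rw [hxT, e, h, hy σ hσ.1]
  -- the action on `T`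
  have hTact : ∀ g ∈ IA A, ∃ c : ℕ, g • T = T + c • (ℓ₀ : Pts (WQ' W)) := by
    intro g hg
    obtain ⟨c, hc⟩ := hgen _ (smul_sub_mem_lineOrd hgood hA hg x)
    refine ⟨c, ?_⟩
    have h1 : g • (x : Pts (WQ' W)) - (x : Pts (WQ' W)) = c • (ℓ₀ : Pts (WQ' W)) := by
      have := congrArg Subtype.val hc
      rw [coe_nsmul_Ep] at this
      exact this
    rw [← h1, hT, smul_sub, hy g hg]
    abel
  by_cases hcase : ∃ k : ℕ, T + k • (ℓ₀ : Pts (WQ' W)) = 0
  · -- `T` is a multiple of `ℓ₀`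
    obtain ⟨k, hk⟩ := hcase
    apply triv
    intro σ hσ
    apply fix_of_T σ hσ
    have hσℓ : σ • (ℓ₀ : Pts (WQ' W)) = ℓ₀ :=
      congrArg Subtype.val (smul_lineOrd_of_IOne hΔ hgood hA hL hσ ℓ₀ hℓ₀)
    have hTk : T = -(k • (ℓ₀ : Pts (WQ' W))) := eq_neg_of_add_eq_zero_left hk
    rw [hTk, smul_neg, (smul_comm k σ (ℓ₀ : Pts (WQ' W))).symm, hσℓ]
  · push Not at hcase
    by_cases hℓ0 : ℓ₀ = 0
    · -- the line is trivial
      apply triv
      intro σ hσ
      apply fix_of_T σ hσ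
      obtain ⟨c, hc⟩ := hTact σ hσ.1
      rw [hℓ0] at hc
      simpa using hc
    · -- the main case
      have D : KData W p A ζ (ℓ₀ : Pts (WQ' W)) T :=
        { hζ := hζ
          hQ1 := hℓ₀
          hQp := by
            have := congrArg Subtype.val (nsmul_p_eq_zero ℓ₀)
            rw [coe_nsmul_Ep] at this
            exact this
          hQval := fun k hk => by
            have := val_zc_lineOrd hΔ hgood hA hL hζ (ℓ := k • ℓ₀)
              ((lineOrd W p A).nsmul_mem hℓ₀ k) (nsmul_ne_zero_of_not_dvd hℓ0 hk)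
            rw [coe_nsmul_Ep] at this
            exact this
          hQact := fun g hg a ha => by
            have := congrArg Subtype.val
              (smul_lineOrd_of_rootAction hΔ hgood hA hL hg a (rootAction_of_primitive hζ ha) ℓ₀ hℓ₀)
            rw [coe_nsmul_Ep] at this
            exact this
          hT1 := hxy
          hTact := hTact
          hTne := hcase }
      obtain ⟨hw0, m, hm⟩ := D.wK_spec hΔ hA hp2
      have hpv0 := val_p_ne_zero (A := A) (Fact.out : p.Prime)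
      have hp0 : ((p : ℕ) : Qb) ≠ 0 := (Valuation.ne_zero_iff _).mp hpv0
      set w : Qb := D.wK / ((p : ℕ) : Qb) ^ m with hw
      have hwv : A.valuation w = 1 := by
        rw [hw, map_div₀, map_zpow₀, hm, div_self (zpow_ne_zero m hpv0)]
      refine ⟨w, ⟨?_, ?_⟩, ?_⟩
      · refine mem_A0_of_fixed (by rw [map_pow, hwv, one_pow]) (fun σ hσ => ?_)
        obtain ⟨c, hc⟩ := hTact σ hσ
        rw [map_pow, hw, map_div₀, map_zpow₀, map_natCast, D.map_wK hσ hc, mul_div_assoc, mul_pow,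
          ← pow_mul, mul_comm c p, pow_mul, hζ.pow_eq_one, one_pow, one_mul]
      · rw [map_pow, hwv, one_pow]
      · intro σ hσ hσw
        apply fix_of_T σ hσ
        obtain ⟨c, hc⟩ := hTact σ hσ.1
        have h1 : σ D.wK = D.wK := by
          rw [hw, map_div₀, map_zpow₀, map_natCast] at hσw
          exact (div_left_inj' (zpow_ne_zero m hp0)).mp hσw
        rw [D.map_wK hσ.1 hc] at h1
        have h2 : ζ ^ c = 1 := mul_right_cancel₀ hw0 (h1.trans (one_mul _).symm)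
        obtain ⟨d, rfl⟩ := (hζ.pow_eq_one_iff_dvd c).mp h2
        rw [mul_nsmul, D.hQp, nsmul_zero, add_zero] at hc
        exact hc

end Fermat.Agent.S59lib.Ord
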