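/-
S59lib / Ord / SS  (helper9) — Project I.

**The supersingular shape**: if all of `W[p]` lies in the kernel of reduction at a place `A` over the odd
prime `p`, then `W[p]` is irreducible under the inertia group `I_A`
(`inertiaIrred_of_lineOrd_eq_top`): an `I_A`-stable line `L` would have an inertia-fixed
`Λ = ∏_{0 ≠ ℓ ∈ L} z(ℓ)` of valuation `≤ v p`, and the remaining `p² - p` points would make
`∏_{0 ≠ x ∈ W[p]} v (z(x)) < v p`, against `Jensen.le_prod_val_zc`.
Corollaries: no non-zero `I_A`-invariant functional `W[p] → 𝔽_p` (`coinvariants_eq_zero`), and the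
dichotomy ordinary shape / supersingular shape (`localOrd_or_inertiaIrred`).
-/
import Fermat.Agent.S59lib.Ord.Jensen
import Fermat.Agent.S59lib.Ord.Main

set_option autoImplicit false
set_option linter.unusedSectionVars false
set_option linter.style.haveILetI false

noncomputable section

namespace Fermat.Agent.S59lib.Ord

open Fermat.Agent.S19lib Fermat.Agent.S58lib.Tate Fermat.Agent.S05lib
open Fermat.Agent.S59lib.Flat Fermat.Agent.S44lib Fermat.Agent.S44lib.F WeierstrassCurve

local notation "Qb" => AlgebraicClosure ℚ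
local notation "GQ" => (AlgebraicClosure ℚ ≃ₐ[ℚ] AlgebraicClosure ℚ)

variable {W : WeierstrassCurve ℤ} {p : ℕ} [hp : Fact p.Prime] {A : ValuationSubring Qb}

/-- a non-empty product of elements `< 1` is `< 1` -/
theorem prod_lt_one_of_nonempty {ι : Type*} {Γ₀ : Type*} [LinearOrderedCommGroupWithZero Γ₀]
    (s : Finset ι) (f : ι → Γ₀) (hs : s.Nonempty) (hf : ∀ i ∈ s, f i < 1) : ∏ i ∈ s, f i < 1 := by
  classical
  obtain ⟨i₀, hi₀⟩ := hs
  rw [← Finset.mul_prod_erase _ _ hi₀]
  calc f i₀ * ∏ i ∈ s.erase i₀, f i ≤ f i₀ * 1 := mul_le_mul' le_rfl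
        (Finset.prod_le_one' (fun i hi => (hf i (Finset.mem_of_mem_erase hi)).le))
    _ = f i₀ := mul_one _
    _ < 1 := hf i₀ hi₀

/-- **supersingular shape**: if `W[p]` lies in the kernel of reduction, it is irreducible under
inertia. -/
theorem inertiaIrred_of_lineOrd_eq_top (hΔ : W.Δ ≠ 0) (hA : A.LiesOverPrime p) (hp2 : p ≠ 2)
    (htop : lineOrd W p A = ⊤) :
    ∀ L : AddSubgroup (Ep (WQ' W) p), (∀ σ ∈ IA A, ∀ x ∈ L, σ • x ∈ L) → L = ⊥ ∨ L = ⊤ := by
  classical
  intro L hL
  haveI := finite_Ep W p hΔ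
  haveI : Fintype (Ep (WQ' W) p) := Fintype.ofFinite _
  have hE : ∀ x : Ep (WQ' W) p, InE1 A.valuation (WB W) (x : Pts (WQ' W)) := fun x => by
    have : x ∈ lineOrd W p A := by rw [htop]; trivial
    exact this
  have hdvd : Nat.card L ∣ p ^ 2 := by
    rw [← card_Ep W p hΔ]
    exact AddSubgroup.card_addSubgroup_dvd_card _
  obtain ⟨j, hj, hcard⟩ := (Nat.dvd_prime_pow hp.out).1 hdvd
  interval_cases j
  · left
    rw [pow_zero] at hcard
    exact AddSubgroup.card_eq_one.mp hcard
  · exfalso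
    rw [pow_one] at hcard
    have hpv0 := val_p_ne_zero (A := A) hp.out
    -- the two families of points
    set S₀ : Finset (Ep (WQ' W) p) := Finset.univ.filter (fun x => x ≠ 0) with hS₀
    set f : Ep (WQ' W) p → Qb := fun x => zc (W := WB W) (x : Pts (WQ' W)) with hf
    have hf1 : ∀ x, A.valuation (f x) < 1 := fun x => val_zc_lt (integralModel_WB W A) (hE x)
    have hf0 : ∀ x ∈ S₀, f x ≠ 0 := by
      intro x hx h
      rw [hS₀, Finset.mem_filter] at hx
      exact hx.2 (Subtype.ext (eq_zero_of_zc_eq_zero hΔ (hE x) h))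
    -- the line has a non-zero point, and there is a point outside
    have hne1 : (S₀.filter (fun x => x ∈ L)).Nonempty := by
      by_contra hcon
      rw [Finset.not_nonempty_iff_eq_empty] at hcon
      have hbot : L = ⊥ := by
        rw [AddSubgroup.eq_bot_iff_forall]
        intro x hx
        by_contra hx0
        have : x ∈ S₀.filter (fun x => x ∈ L) :=
          Finset.mem_filter.mpr ⟨Finset.mem_filter.mpr ⟨Finset.mem_univ _, hx0⟩, hx⟩
        rw [hcon] at this
        exact absurd this (Finset.notMem_empty _)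
      rw [hbot, AddSubgroup.card_bot] at hcard
      exact hp.out.one_lt.ne hcard
    have hne2 : (S₀.filter (fun x => ¬ x ∈ L)).Nonempty := by
      by_contra hcon
      rw [Finset.not_nonempty_iff_eq_empty] at hcon
      have htopL : L = ⊤ := by
        rw [AddSubgroup.eq_top_iff']
        intro x
        by_contra hx
        have hx0 : x ≠ 0 := fun h => hx (h ▸ L.zero_mem)
        have : x ∈ S₀.filter (fun x => ¬ x ∈ L) :=
          Finset.mem_filter.mpr ⟨Finset.mem_filter.mpr ⟨Finset.mem_univ _, hx0⟩, hx⟩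
        rw [hcon] at this
        exact absurd this (Finset.notMem_empty _)
      rw [htopL, AddSubgroup.card_top, card_Ep W p hΔ] at hcard
      have := hp.out.one_lt
      nlinarith
    -- the inertia-fixed product over the line
    set Λ : Qb := ∏ x ∈ S₀.filter (fun x => x ∈ L), f x with hΛ
    have hΛ0 : Λ ≠ 0 := by
      rw [hΛ, Finset.prod_ne_zero_iff]
      exact fun x hx => hf0 x (Finset.mem_of_mem_filter x hx)
    have hΛfix : ∀ σ ∈ IA A, σ Λ = Λ := by
      intro σ hσ
      rw [hΛ, map_prod]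
      refine Finset.prod_equiv (MulAction.toPerm σ) (fun x => ?_) (fun x _ => ?_)
      · simp only [hS₀, Finset.mem_filter, Finset.mem_univ, true_and, MulAction.toPerm_apply]
        constructor
        · rintro ⟨hx0, hxL⟩
          exact ⟨fun h => hx0 ((smul_eq_zero_iff_eq σ).mp h), hL σ hσ x hxL⟩
        · rintro ⟨hx0, hxL⟩
          refine ⟨fun h => hx0 (by rw [h, smul_zero]), ?_⟩
          have := hL σ⁻¹ ((IA A).inv_mem hσ) _ hxL
          rwa [inv_smul_smul] at this
      · show σ (zc (W := WB W) (x : Pts (WQ' W))) = zc (W := WB W) ((σ • x : Ep (WQ' W) p) : Pts (WQ' W))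
        rw [← zc_smul]
        rfl
    have hΛ1 : A.valuation Λ < 1 := by
      rw [hΛ, map_prod]
      exact prod_lt_one_of_nonempty _ _ hne1 (fun x _ => hf1 x)
    have hΛp : A.valuation Λ ≤ A.valuation ((p : ℕ) : Qb) :=
      Fermat.Agent.S19lib.D.valuation_le_of_mem_A0 hp.out A hA
        (mem_A0_of_fixed hΛ1.le hΛfix) hΛ1
    -- Jensen
    have hJ := le_prod_val_zc hΔ hA hp2
      (S₀.image (fun x : Ep (WQ' W) p => (x : Pts (WQ' W)))) (by
      intro y hy
      obtain ⟨x, hx, rfl⟩ := Finset.mem_image.mp hy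
      rw [hS₀, Finset.mem_filter] at hx
      refine ⟨fun h => hx.2 (Subtype.ext h), hE x, ?_⟩
      have := congrArg Subtype.val (nsmul_p_eq_zero x)
      rwa [coe_nsmul_Ep] at this)
    rw [Finset.prod_image (fun x _ y _ h => Subtype.ext h)] at hJ
    have hsplit : ∏ x ∈ S₀, A.valuation (f x) =
        A.valuation Λ * ∏ x ∈ S₀.filter (fun x => ¬ x ∈ L), A.valuation (f x) := by
      rw [hΛ, map_prod, Finset.prod_filter_mul_prod_filter_not]
    have hlt : ∏ x ∈ S₀, A.valuation (f x) < A.valuation ((p : ℕ) : Qb) := by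
      rw [hsplit]
      calc A.valuation Λ * ∏ x ∈ S₀.filter (fun x => ¬ x ∈ L), A.valuation (f x)
          < A.valuation Λ * 1 := mul_lt_mul_of_pos_left
            (prod_lt_one_of_nonempty _ _ hne2 (fun x _ => hf1 x))
            (zero_lt_iff.mpr ((Valuation.ne_zero_iff _).mpr hΛ0))
        _ = A.valuation Λ := mul_one _
        _ ≤ _ := hΛp
    exact absurd hJ (not_le.mpr hlt)
  · right
    apply AddSubgroup.eq_top_of_card_eq
    rw [hcard, card_Ep W p hΔ]

/-- **no inertia-coinvariants** in the supersingular shape. -/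
theorem coinvariants_eq_zero (hΔ : W.Δ ≠ 0) (hA : A.LiesOverPrime p) (hp2 : p ≠ 2)
    (htop : lineOrd W p A = ⊤) (φ : Ep (WQ' W) p →+ ZMod p)
    (hφ : ∀ σ ∈ IA A, ∀ x, φ (σ • x) = φ x) : φ = 0 := by
  haveI := finite_Ep W p hΔ
  haveI : NeZero p := ⟨hp.out.ne_zero⟩
  have hker : ∀ σ ∈ IA A, ∀ x ∈ φ.ker, σ • x ∈ φ.ker := by
    intro σ hσ x hx
    rw [AddMonoidHom.mem_ker] at hx ⊢
    rw [hφ σ hσ x, hx]
  rcases inertiaIrred_of_lineOrd_eq_top hΔ hA hp2 htop φ.ker hker with h | h
  · exfalso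
    have hinj : Function.Injective φ := (AddMonoidHom.ker_eq_bot_iff φ).mp h
    have := Nat.card_le_card_of_injective φ hinj
    rw [card_Ep W p hΔ, Nat.card_eq_fintype_card, ZMod.card] at this
    have h1 := hp.out.one_lt
    nlinarith
  · ext x
    have : x ∈ φ.ker := by rw [h]; trivial
    exact this

/-- **the dichotomy at a place over an odd prime of good reduction**: ordinary shape
(conclusion of `Q3WOrdStmt`) or supersingular shape (inertia-irreducible). -/
theorem localOrd_or_inertiaIrred (hp2 : p ≠ 2) (hgood : ¬ (p : ℤ) ∣ W.Δ)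
    (hA : A.LiesOverPrime p) :
    ((∀ x : Ep (WQ' W) p, ∃ w : Qb, IsUnitRoot A p w ∧ FixedOver A p w x) ∧
      ∃ L : AddSubgroup (Ep (WQ' W) p), L ≠ ⊤ ∧ (∀ σ ∈ IA A, ∀ x ∈ L, σ • x ∈ L) ∧
        (∀ σ ∈ IA A, ∀ x : Ep (WQ' W) p, σ • x - x ∈ L) ∧
        (∀ σ ∈ IOne A p, ∀ x ∈ L, σ • x = x)) ∨
    (∀ L : AddSubgroup (Ep (WQ' W) p), (∀ σ ∈ IA A, ∀ x ∈ L, σ • x ∈ L) → L = ⊥ ∨ L = ⊤) := by
  have hΔ : W.Δ ≠ 0 := fun h => hgood (by rw [h]; exact dvd_zero _)
  by_cases htop : lineOrd W p A = ⊤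
  · exact Or.inr (inertiaIrred_of_lineOrd_eq_top hΔ hA hp2 htop)
  · left
    refine q3WOrdStmt p hp2 W hgood A hA ?_
    by_contra hcon
    push Not at hcon
    exact htop ((AddSubgroup.eq_top_iff' _).mpr hcon)

end Fermat.Agent.S59lib.Ord
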