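/-
S59lib / Ord / LocalAtP  (helper9) — Project I.

**helper6's `MRp.LocalAtPStmt` is a theorem**: at a place `A` over `p` (`p = 3` or `5`; in fact any odd
prime) of good reduction of `W`, either the ordinary shape `MRp.LocalOrdAt W p A` or the supersingular
shape `MRp.InertiaIrredAt W p A` holds (`Ord.localOrd_or_inertiaIrred`; no `a_p`, no point count: the
case distinction is whether `W[p]` lies in the kernel of reduction at `A`).
-/
import Fermat.Agent.S59lib.Ord.SS
import Fermat.Agent.S59lib.MRp.Assembly

set_option autoImplicit false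
set_option linter.unusedSectionVars false
set_option linter.style.haveILetI false

namespace Fermat.Agent.S59lib.Ord

open Fermat.Agent.S59lib.MRp

local notation "Qb" => AlgebraicClosure ℚ

/-- the dichotomy in helper6's vocabulary, for every odd prime of good reduction -/
theorem localOrdAt_or_inertiaIrredAt {p : ℕ} (hp : p.Prime) (hp2 : p ≠ 2) (W : WeierstrassCurve ℤ)
    (hgood : W.IsGoodPrimeFor p) (A : ValuationSubring Qb) (hA : A.LiesOverPrime p) :
    LocalOrdAt W p A ∨ InertiaIrredAt W p A := by
  haveI : Fact p.Prime := ⟨hp⟩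
  exact localOrd_or_inertiaIrred hp2 hgood hA

/-- **`MRp.LocalAtPStmt` holds.** -/
theorem localAtPStmt : LocalAtPStmt := by
  intro p hp35 W _ _ _ hgood A hA
  have hp : p.Prime := by rcases hp35 with rfl | rfl <;> norm_num
  have hp2 : p ≠ 2 := by rcases hp35 with rfl | rfl <;> norm_num
  exact localOrdAt_or_inertiaIrredAt hp hp2 W hgood A hA

end Fermat.Agent.S59lib.Ord
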